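/-
S13 skeleton / final glue (row-lead helper13).

`Fermat.Agent.S13.Skel.result_of_parts` proves the frozen S13 statement from the
frozen interface statements (T1, T3, T4, T5, T6, T7) taken as explicit hypotheses.
Imports: the frozen statement module only.  Piece owners only have to match the shapes.
-/
import Fermat.Statements.S13

set_option autoImplicit false

namespace Fermat.Agent.S13.Skel

/-! ### Linear algebra over a field: nilpotent maps on lines -/

section LinAlg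

variable {K M : Type*} [Field K] [AddCommGroup M] [Module K M]

/-- On a module of rank `≤ 1`, an endomorphism with square zero is zero. -/
theorem eq_zero_of_sq_zero_of_finrank_le_one [Module.Finite K M]
    (h1 : Module.finrank K M ≤ 1) (g : M →ₗ[K] M) (hg : ∀ x, g (g x) = 0) (x : M) :
    g x = 0 := by
  obtain ⟨v, hv⟩ := finrank_le_one_iff.1 h1
  obtain ⟨c, hc⟩ := hv (g v)
  have hgv : g v = 0 := by
    by_cases hv0 : v = 0
    · rw [hv0, map_zero]
    · have h2 : (c * c) • v = 0 := by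
        have := hg v
        rw [← hc, map_smul, ← hc, smul_smul] at this
        exact this
      rcases smul_eq_zero.1 h2 with h | h
      · have hc0 : c = 0 := by simpa using h
        rw [← hc, hc0, zero_smul]
      · exact absurd h hv0
  obtain ⟨d, hd⟩ := hv x
  rw [← hd, map_smul, hgv, smul_zero]

variable [Module.Finite K M]

/-- In a space of rank `≤ 2`, with `N ≠ ⊥, ⊤` stable under `f`:
`f² = 0` on `N` implies `f = 0` on `N`. -/
theorem eq_zero_on_of_sq_zero (h2 : Module.finrank K M ≤ 2) (N : Submodule K M)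
    (hN : N ≠ ⊤) (f : M →ₗ[K] M) (hf : ∀ x ∈ N, f x ∈ N)
    (hsq : ∀ x ∈ N, f (f x) = 0) : ∀ x ∈ N, f x = 0 := by
  have hlt : Module.finrank K N < Module.finrank K M := Submodule.finrank_lt hN
  have h1 : Module.finrank K N ≤ 1 := by omega
  intro x hx
  have := eq_zero_of_sq_zero_of_finrank_le_one h1 (f.restrict hf)
    (fun y => Subtype.ext (by simpa using hsq y y.2)) ⟨x, hx⟩
  simpa using congrArg Subtype.val this

/-- In a space of rank `≤ 2`, with `N ≠ ⊥, ⊤` stable under `f`: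
`f² ⊆ N` implies `f ⊆ N`. -/
theorem mem_of_sq_mem (h2 : Module.finrank K M ≤ 2) (N : Submodule K M)
    (hN : N ≠ ⊥) (f : M →ₗ[K] M) (hf : ∀ x ∈ N, f x ∈ N)
    (hsq : ∀ x, f (f x) ∈ N) : ∀ x, f x ∈ N := by
  have hpos : 0 < Module.finrank K N := by
    rw [Module.finrank_pos_iff_exists_ne_zero]
    obtain ⟨x, hx, hx0⟩ := (Submodule.ne_bot_iff N).1 hN
    exact ⟨⟨x, hx⟩, fun h => hx0 (congrArg Subtype.val h)⟩
  have hadd := N.finrank_quotient_add_finrank
  have h1 : Module.finrank K (M ⧸ N) ≤ 1 := by omega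
  have hle : N ≤ N.comap f := fun x hx => hf x hx
  intro x
  have := eq_zero_of_sq_zero_of_finrank_le_one h1 (N.mapQ N f hle)
    (fun y => by
      induction y using Submodule.Quotient.induction_on with
      | _ y =>
        simp only [Submodule.mapQ_apply]
        exact (Submodule.Quotient.mk_eq_zero N).2 (hsq y)) (Submodule.Quotient.mk x)
  simpa [Submodule.mapQ_apply, Submodule.Quotient.mk_eq_zero] using this

end LinAlg

/-! ### The Galois glue -/

section Glue

open WeierstrassCurve WeierstrassCurve.Affine WeierstrassCurve.Affine.Point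

variable (P : FreyPackage)

/-- `E[p](ℚ̄)` of the Frey curve, in the exact Prelude shape. -/
abbrev Vp : Type :=
  Submodule.torsionBy ℤ (P.freyCurve⁄(AlgebraicClosure ℚ)).Point P.p

/-- `Gal(ℚ̄/ℚ)`. -/
abbrev GQ : Type := (AlgebraicClosure ℚ) ≃ₐ[ℚ] (AlgebraicClosure ℚ)

/-- `σ - 1` as a `ZMod p`-linear endomorphism of `E[p]`. -/
noncomputable def sigmaSubOne (σ : GQ) : Vp P →ₗ[ZMod P.p] Vp P :=
  AddMonoidHom.toZModLinearMap P.p (DistribSMul.toAddMonoidHom (Vp P) σ) - LinearMap.id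

theorem sigmaSubOne_apply (σ : GQ) (x : Vp P) : sigmaSubOne P σ x = σ • x - x := rfl

/-- `dim E[p] ≤ 2` from the T1 count. -/
theorem finrank_le_two (hfin : Finite (Vp P)) (hcard : Nat.card (Vp P) ≤ P.p ^ 2) :
    Module.finrank (ZMod P.p) (Vp P) ≤ 2 := by
  have : Fact P.p.Prime := ⟨P.pp⟩
  have : Module.Finite (ZMod P.p) (Vp P) := Module.Finite.of_finite
  have h := Module.natCard_eq_pow_finrank (K := ZMod P.p) (V := Vp P)
  rw [Nat.card_zmod] at h
  rw [h] at hcard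
  exact (Nat.pow_le_pow_iff_right P.pp.one_lt).1 hcard

/-- The subgroup of `Gal(ℚ̄/ℚ)` fixing `N` pointwise (kernel of `χ₁`). -/
def fixN (N : Submodule (ZMod P.p) (Vp P)) : Subgroup GQ where
  carrier := {σ | ∀ x ∈ N, σ • x = x}
  one_mem' := fun x _ => one_smul _ x
  mul_mem' := by
    intro σ τ hσ hτ x hx
    rw [mul_smul, hτ x hx, hσ x hx]
  inv_mem' := by
    intro σ hσ x hx
    conv_lhs => rw [← hσ x hx]
    exact inv_smul_smul σ x

/-- The subgroup of `Gal(ℚ̄/ℚ)` acting trivially on `V/N` (kernel of `χ₂`). -/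
def cofixN (N : Submodule (ZMod P.p) (Vp P)) : Subgroup GQ where
  carrier := {σ | ∀ x, σ • x - x ∈ N}
  one_mem' := fun x => by simp
  mul_mem' := by
    intro σ τ hσ hτ x
    have h : (σ * τ) • x - x = (σ • (τ • x) - τ • x) + (τ • x - x) := by
      rw [mul_smul]; abel
    rw [h]
    exact N.add_mem (hσ _) (hτ _)
  inv_mem' := by
    intro σ hσ x
    have h : σ⁻¹ • x - x = -(σ • (σ⁻¹ • x) - σ⁻¹ • x) := by
      rw [smul_inv_smul]; abel
    rw [h]
    exact N.neg_mem (hσ _)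

theorem mem_fixN {N : Submodule (ZMod P.p) (Vp P)} {σ : GQ} :
    σ ∈ fixN P N ↔ ∀ x ∈ N, σ • x = x := Iff.rfl

theorem mem_cofixN {N : Submodule (ZMod P.p) (Vp P)} {σ : GQ} :
    σ ∈ cofixN P N ↔ ∀ x, σ • x - x ∈ N := Iff.rfl

theorem fixN_normal {N : Submodule (ZMod P.p) (Vp P)}
    (hN : IsGaloisStable (K := AlgebraicClosure ℚ) ℚ N) : (fixN P N).Normal := by
  refine ⟨fun σ hσ τ x hx => ?_⟩
  have h1 : τ⁻¹ • x ∈ N := hN τ⁻¹ x hx
  rw [mul_smul, mul_smul, hσ _ h1, smul_inv_smul]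

theorem cofixN_normal {N : Submodule (ZMod P.p) (Vp P)}
    (hN : IsGaloisStable (K := AlgebraicClosure ℚ) ℚ N) : (cofixN P N).Normal := by
  refine ⟨fun σ hσ τ x => ?_⟩
  have h1 : σ • (τ⁻¹ • x) - τ⁻¹ • x ∈ N := hσ _
  have h2 := hN τ _ h1
  have h3 : (τ * σ * τ⁻¹) • x - x = τ • (σ • (τ⁻¹ • x) - τ⁻¹ • x) := by
    rw [mul_smul, mul_smul, smul_sub, smul_inv_smul]
  rw [h3]
  exact h2

/-- Openness: a finite set of coordinates whose pointwise fixer acts trivially on `E[p]`. -/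
theorem exists_finset_fix (hfin : Finite (Vp P)) :
    ∃ s : Finset (AlgebraicClosure ℚ), ∀ σ : GQ, (∀ x ∈ s, σ x = x) →
      ∀ v : Vp P, σ • v = v := by
  classical
  have := Fintype.ofFinite (Vp P)
  let coords : (P.freyCurve⁄(AlgebraicClosure ℚ)).Point → Finset (AlgebraicClosure ℚ) :=
    fun Q => match Q with
      | .zero => ∅
      | .some x y _ => {x, y}
  refine ⟨Finset.univ.biUnion fun v : Vp P => coords v.1, fun σ hσ v => ?_⟩
  have hv : ∀ x ∈ coords v.1, σ x = x := fun x hx =>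
    hσ x (Finset.mem_biUnion.2 ⟨v, Finset.mem_univ _, hx⟩)
  apply Subtype.ext
  change Point.map σ.toAlgHom v.1 = v.1
  rcases hQ : v.1 with _ | ⟨x, y, h⟩
  · rfl
  · rw [hQ] at hv
    have hx : σ x = x := hv x (by simp [coords])
    have hy : σ y = y := hv y (by simp [coords])
    rw [Point.map_some]
    simp only [Point.some.injEq]
    exact ⟨hx, hy⟩

/-- Unipotent inertia (`(σ-1)² = 0` on `E[p]`) lies in both character kernels. -/
theorem unipotent_mem (hfin : Finite (Vp P)) (hcard : Nat.card (Vp P) ≤ P.p ^ 2)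
    {N : Submodule (ZMod P.p) (Vp P)}
    (hN : IsGaloisStable (K := AlgebraicClosure ℚ) ℚ N) (hbot : N ≠ ⊥) (htop : N ≠ ⊤)
    (σ : GQ) (hσ : ∀ x : Vp P, σ • (σ • x - x) = σ • x - x) :
    σ ∈ fixN P N ∧ σ ∈ cofixN P N := by
  have : Fact P.p.Prime := ⟨P.pp⟩
  have : Module.Finite (ZMod P.p) (Vp P) := Module.Finite.of_finite
  have h2 := finrank_le_two P hfin hcard
  have hst : ∀ x ∈ N, sigmaSubOne P σ x ∈ N := fun x hx =>
    N.sub_mem (hN σ x hx) hx
  have hsq : ∀ x : Vp P, sigmaSubOne P σ (sigmaSubOne P σ x) = 0 := fun x => by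
    rw [sigmaSubOne_apply, sigmaSubOne_apply, hσ x, sub_self]
  constructor
  · intro x hx
    have := eq_zero_on_of_sq_zero h2 N htop (sigmaSubOne P σ) hst (fun y _ => hsq y) x hx
    rw [sigmaSubOne_apply] at this
    exact sub_eq_zero.1 this
  · intro x
    have := mem_of_sq_mem h2 N hbot (sigmaSubOne P σ) hst
      (fun y => by rw [hsq y]; exact N.zero_mem) x
    rwa [sigmaSubOne_apply] at this

/-- `(σ-1)² E[p] ⊆ N` and `σ ∈ I` implies `σ` is trivial on `V/N`. -/
theorem mem_cofixN_of_sq (hfin : Finite (Vp P)) (hcard : Nat.card (Vp P) ≤ P.p ^ 2)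
    {N : Submodule (ZMod P.p) (Vp P)}
    (hN : IsGaloisStable (K := AlgebraicClosure ℚ) ℚ N) (hbot : N ≠ ⊥)
    (σ : GQ) (hσ : ∀ x : Vp P, σ • (σ • x - x) - (σ • x - x) ∈ N) :
    σ ∈ cofixN P N := by
  have : Fact P.p.Prime := ⟨P.pp⟩
  have : Module.Finite (ZMod P.p) (Vp P) := Module.Finite.of_finite
  have h2 := finrank_le_two P hfin hcard
  have hst : ∀ x ∈ N, sigmaSubOne P σ x ∈ N := fun x hx =>
    N.sub_mem (hN σ x hx) hx
  intro x
  have := mem_of_sq_mem h2 N hbot (sigmaSubOne P σ) hst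
    (fun y => by rw [sigmaSubOne_apply, sigmaSubOne_apply]; exact hσ y) x
  rwa [sigmaSubOne_apply] at this

/-- Adapter: the character form of Minkowski (T6, `minkowski_character`) gives the
subgroup form used by `result_of_parts`. -/
theorem minkowski_subgroup_of_character
    (hchar : ∀ (H : Type) [Group H] (χ : GQ →* H),
      (∃ s : Finset (AlgebraicClosure ℚ), ∀ σ : GQ, (∀ x ∈ s, σ x = x) → χ σ = 1) →
      (∀ q : ℕ, q.Prime → ∃ A : ValuationSubring (AlgebraicClosure ℚ),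
          A.LiesOverPrime q ∧ ∀ σ ∈ A.inertiaSubgroupIn ℚ, χ σ = 1) →
      ∀ σ, χ σ = 1)
    (H : Subgroup GQ) (hH : H.Normal)
    (hopen : ∃ s : Finset (AlgebraicClosure ℚ), ∀ σ : GQ, (∀ x ∈ s, σ x = x) → σ ∈ H)
    (hunr : ∀ q : ℕ, q.Prime → ∃ A : ValuationSubring (AlgebraicClosure ℚ),
        A.LiesOverPrime q ∧ ∀ σ ∈ A.inertiaSubgroupIn ℚ, σ ∈ H) : H = ⊤ := by
  have key := hchar (GQ ⧸ H) (QuotientGroup.mk' H)
    (by
      obtain ⟨s, hs⟩ := hopen
      exact ⟨s, fun σ hσ => (QuotientGroup.eq_one_iff σ).2 (hs σ hσ)⟩)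
    (fun q hq => by
      obtain ⟨A, hA, hA2⟩ := hunr q hq
      exact ⟨A, hA, fun σ hσ => (QuotientGroup.eq_one_iff σ).2 (hA2 σ hσ)⟩)
  exact (Subgroup.eq_top_iff' H).2 fun σ => (QuotientGroup.eq_one_iff σ).1 (key σ)

/-- **S13 from its parts.**  Hypotheses are the frozen interface statements:
* `hT1`  : `E[p](ℚ̄)` is nontrivial, finite, of cardinality `≤ p²`;
* `hT3`  : S05 (unramified at `q ≠ 2, p`);
* `hT4`  : at ONE valuation ring over `2`, inertia is unipotent: `(σ-1)² = 0`;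
* `hT5`  : for each stable line `N`, at ONE valuation ring over `p`, inertia is trivial
           on `N` or trivial on `V/N`;
* `hT6`  : Minkowski (subgroup form): a normal open subgroup containing one inertia
           group at every prime is everything;
* `hT7`  : no nonzero Galois-fixed point in `E[p]`;
* `hex`  : valuation rings over every prime exist. -/
theorem result_of_parts
    (hT1 : Nontrivial (Vp P) ∧ Finite (Vp P) ∧ Nat.card (Vp P) ≤ P.p ^ 2)
    (hT3 : ∀ q : ℕ, q.Prime → q ≠ 2 → q ≠ P.p → P.GaloisRepUnramifiedAt q)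
    (hT4 : ∃ A : ValuationSubring (AlgebraicClosure ℚ), A.LiesOverPrime 2 ∧
        ∀ σ ∈ A.inertiaSubgroupIn ℚ, ∀ x : Vp P, σ • (σ • x - x) = σ • x - x)
    (hT5 : ∀ N : Submodule (ZMod P.p) (Vp P),
        IsGaloisStable (K := AlgebraicClosure ℚ) ℚ N → N ≠ ⊥ → N ≠ ⊤ →
        ∃ A : ValuationSubring (AlgebraicClosure ℚ), A.LiesOverPrime P.p ∧
          ((∀ σ ∈ A.inertiaSubgroupIn ℚ, ∀ x ∈ N, σ • x = x) ∨
           (∀ σ ∈ A.inertiaSubgroupIn ℚ, ∀ x : Vp P, σ • x - x ∈ N)))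
    (hT6 : ∀ H : Subgroup GQ, H.Normal →
        (∃ s : Finset (AlgebraicClosure ℚ), ∀ σ : GQ, (∀ x ∈ s, σ x = x) → σ ∈ H) →
        (∀ q : ℕ, q.Prime → ∃ A : ValuationSubring (AlgebraicClosure ℚ),
            A.LiesOverPrime q ∧ ∀ σ ∈ A.inertiaSubgroupIn ℚ, σ ∈ H) → H = ⊤)
    (hT7 : ∀ x : Vp P, (∀ σ : GQ, σ • x = x) → x = 0)
    (hex : ∀ q : ℕ, q.Prime → ∃ A : ValuationSubring (AlgebraicClosure ℚ), A.LiesOverPrime q)
    (hred : ¬ GaloisRepIsIrreducible (K := AlgebraicClosure ℚ) ℚ P.freyCurve P.p) :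
    HasGaloisStableCofixedLine (K := AlgebraicClosure ℚ) ℚ P.freyCurve P.p := by
  obtain ⟨hnt, hfin, hcard⟩ := hT1
  -- the stable line
  have hex' : ∃ N : Submodule (ZMod P.p) (Vp P),
      IsGaloisStable (K := AlgebraicClosure ℚ) ℚ N ∧ N ≠ ⊥ ∧ N ≠ ⊤ := by
    by_contra hcon
    apply hred
    refine ⟨hnt, fun N hN => ?_⟩
    by_contra h
    exact hcon ⟨N, hN, fun h1 => h (Or.inl h1), fun h1 => h (Or.inr h1)⟩
  obtain ⟨N, hN, hbot, htop⟩ := hex'
  obtain ⟨s, hs⟩ := exists_finset_fix P hfin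
  -- inertia at primes `q ≠ 2, p` and at `2` lies in both kernels
  have hboth : ∀ q : ℕ, q.Prime → q ≠ P.p →
      ∃ A : ValuationSubring (AlgebraicClosure ℚ), A.LiesOverPrime q ∧
        ∀ σ ∈ A.inertiaSubgroupIn ℚ, σ ∈ fixN P N ∧ σ ∈ cofixN P N := by
    intro q hq hqp
    by_cases hq2 : q = 2
    · subst hq2
      obtain ⟨A, hA, hA2⟩ := hT4
      exact ⟨A, hA, fun σ hσ => unipotent_mem P hfin hcard hN hbot htop σ (hA2 σ hσ)⟩
    · obtain ⟨A, hA⟩ := hex q hq
      refine ⟨A, hA, fun σ hσ => ?_⟩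
      have h := hT3 q hq hq2 hqp A hA σ hσ
      refine ⟨fun x _ => h x, fun x => ?_⟩
      have hx0 : σ • x - x = 0 := sub_eq_zero.2 (h x)
      rw [hx0]
      exact N.zero_mem
  obtain ⟨A, hA, hAp⟩ := hT5 N hN hbot htop
  rcases hAp with h1 | h2
  · -- `χ₁` unramified everywhere: contradiction with T7
    exfalso
    have htop1 : fixN P N = ⊤ := by
      refine hT6 _ (fixN_normal P hN) ⟨s, fun σ hσ x _ => hs σ hσ x⟩ (fun q hq => ?_)
      by_cases hqp : q = P.p
      · subst hqp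
        exact ⟨A, hA, fun σ hσ => h1 σ hσ⟩
      · obtain ⟨B, hB, hB2⟩ := hboth q hq hqp
        exact ⟨B, hB, fun σ hσ => (hB2 σ hσ).1⟩
    obtain ⟨x, hx, hx0⟩ := (Submodule.ne_bot_iff N).1 hbot
    refine hx0 (hT7 x fun σ => ?_)
    have : σ ∈ fixN P N := by rw [htop1]; exact Subgroup.mem_top σ
    exact this x hx
  · -- `χ₂` unramified everywhere: done
    have htop2 : cofixN P N = ⊤ := by
      refine hT6 _ (cofixN_normal P hN) ⟨s, fun σ hσ x => ?_⟩ (fun q hq => ?_)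
      · have hx0 : σ • x - x = 0 := sub_eq_zero.2 (hs σ hσ x)
        rw [hx0]
        exact N.zero_mem
      · by_cases hqp : q = P.p
        · subst hqp
          exact ⟨A, hA, fun σ hσ => h2 σ hσ⟩
        · obtain ⟨B, hB, hB2⟩ := hboth q hq hqp
          exact ⟨B, hB, fun σ hσ => (hB2 σ hσ).2⟩
    refine ⟨N, hN, hbot, htop, fun σ x => ?_⟩
    have : σ ∈ cofixN P N := by rw [htop2]; exact Subgroup.mem_top σ
    exact this x

end Glue

end Fermat.Agent.S13.Skel
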