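import Fermat.Agent.S13.Comp2Point
import Fermat.Prelude.Def_FLTPrelim_GaloisRep

/-!
# Kernel of the component map, torsion points near the node, and Galois invariance
(any residue characteristic)
-/

set_option autoImplicit false

namespace Fermat.Agent.S13.Comp2

open WeierstrassCurve WeierstrassCurve.Affine

variable {K : Type*} [Field K] {Γ₀ : Type*} [LinearOrderedCommGroupWithZero Γ₀]
  {v : Valuation K Γ₀}

lemma cls_eq_one_iff (a : K) (g : Γ₀) :
    cls v a g = 1 ↔ ∃ k : ℤ, (toU (v a) ^ 2) ^ k = toU g := by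
  rw [cls, QuotientGroup.eq_one_iff, Subgroup.mem_zpowers_iff]

/-- If `cls g = 1` with `g ≠ 0` then `g` is an integral power of `v a ^ 2`. -/
lemma exists_zpow_of_cls_eq_one {a : K} (ha0 : a ≠ 0) {g : Γ₀} (hg : g ≠ 0)
    (h : cls v a g = 1) : ∃ k : ℤ, g = (v a ^ 2) ^ k := by
  have h0 : v a ≠ 0 := (Valuation.ne_zero_iff v).mpr ha0
  obtain ⟨k, hk⟩ := (cls_eq_one_iff a g).mp h
  refine ⟨k, ?_⟩
  have := congrArg (fun u : Γ₀ˣ => (u : Γ₀)) hk
  simp only [Units.val_zpow_eq_zpow_val, Units.val_pow_eq_pow_val, toU_coe h0, toU_coe hg] at this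
  exact this.symm

/-- An element `g < 1` which is an integral power of `m < 1` is a natural power. -/
lemma exists_pow_of_zpow {m g : Γ₀} (hm0 : m ≠ 0) (hm : m < 1) (hg : g < 1) {k : ℤ}
    (h : g = m ^ k) : ∃ j : ℕ, g = m ^ j := by
  rcases le_or_gt 0 k with hk | hk
  · refine ⟨k.toNat, ?_⟩
    rw [h]
    conv_lhs => rw [← Int.toNat_of_nonneg hk]
    exact zpow_natCast m k.toNat
  · exfalso
    have h1 : 1 ≤ m ^ k := by
      have : m ^ k = (m ^ (-k).toNat)⁻¹ := by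
        rw [← zpow_natCast, Int.toNat_of_nonneg (by omega), zpow_neg, inv_inv]
      rw [this]
      apply (one_le_inv₀ (pow_pos (zero_lt_iff.mpr hm0) _)).mpr
      exact pow_le_one₀ zero_le hm.le
    rw [← h] at h1
    exact absurd h1 (not_le.mpr hg)

/-- An element `g` with `v a ≤ g < 1` is not in the subgroup generated by `v a ^ 2`. -/
lemma cls_ne_one_of_le_of_lt {a : K} (ha0 : a ≠ 0) (ha : v a < 1) {g : Γ₀}
    (hlo : v a ≤ g) (hhi : g < 1) : cls v a g ≠ 1 := by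
  have h0 : v a ≠ 0 := (Valuation.ne_zero_iff v).mpr ha0
  have hpos : 0 < v a := zero_lt_iff.mpr h0
  have hg0 : g ≠ 0 := (hpos.trans_le hlo).ne'
  intro h
  obtain ⟨k, hk⟩ := exists_zpow_of_cls_eq_one ha0 hg0 h
  have hsq0 : v a ^ 2 ≠ 0 := pow_ne_zero 2 h0
  have hsq1 : v a ^ 2 < 1 := pow_lt_one₀ zero_le ha (by norm_num)
  obtain ⟨j, hj⟩ := exists_pow_of_zpow hsq0 hsq1 hhi hk
  rw [← pow_mul] at hj
  rcases Nat.eq_zero_or_pos j with h0j | hjpos
  · rw [h0j, mul_zero, pow_zero] at hj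
    exact absurd hj hhi.ne
  · have : v a ^ (2 * j) < v a := by
      calc v a ^ (2 * j) ≤ v a ^ 2 := pow_le_pow_of_le_one zero_le ha.le (by omega)
        _ = v a * v a := pow_two _
        _ < v a * 1 := mul_lt_mul_of_pos_left ha hpos
        _ = v a := mul_one _
    rw [← hj] at this
    exact absurd hlo (not_le.mpr this)

lemma cls_a_ne_one {a : K} (ha0 : a ≠ 0) (ha : v a < 1) : cls v a (v a) ≠ 1 :=
  cls_ne_one_of_le_of_lt ha0 ha le_rfl ha

/-- The component of a point on the cubic is trivial iff the point is away from the node. -/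
theorem comp2XY_eq_one_iff {a γ₁ γ₂ x y : K} (hδ : v (γ₁ - γ₂) = 1) (ha : v a < 1)
    (ha0 : a ≠ 0) (hE : (y - γ₁ * x) * (y - γ₂ * x) = x * (x ^ 2 + a)) :
    comp2XY v a γ₁ x y = 1 ↔ 1 ≤ v x := by
  constructor
  · intro h
    rcases comp2XY_cases hδ ha hE with ⟨hZ, -⟩ | ⟨-, e⟩ | ⟨hlo, hhi, -, e⟩ | ⟨hlo, hhi, -, e⟩
    · exact hZ
    · rw [e] at h
      exact absurd h (cls_a_ne_one ha0 ha)
    · rw [e] at h
      exact absurd h (cls_ne_one_of_le_of_lt ha0 ha hlo.le hhi)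
    · rw [e, inv_eq_one] at h
      exact absurd h (cls_ne_one_of_le_of_lt ha0 ha hlo.le hhi)
  · exact comp2XY_of_Z

/-- The component is invariant under valuation-preserving ring endomorphisms fixing the
branch `γ₁`. -/
lemma comp2XY_map {a γ₁ x y : K} (σ : K →+* K) (hv : ∀ t, v (σ t) = v t)
    (hγ : σ γ₁ = γ₁) : comp2XY v a γ₁ (σ x) (σ y) = comp2XY v a γ₁ x y := by
  have e : σ y - γ₁ * σ x = σ (y - γ₁ * x) := by
    rw [map_sub, map_mul, hγ]
  simp only [comp2XY]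
  rw [e, hv, hv]

namespace NodeModel2

variable {W : Affine K}

lemma gamma₁_root (M : NodeModel2 v W) : M.γ₁ ^ 2 + W.a₁ * M.γ₁ - W.a₂ = 0 := by
  rw [M.ha₁, M.ha₂]; ring

/-- The branches are `v`-integral when `a₁` and `a₂` are. -/
lemma val_gamma₁_le_one (M : NodeModel2 v W) (h1 : v W.a₁ ≤ 1) (h2 : v W.a₂ ≤ 1) :
    v M.γ₁ ≤ 1 := by
  by_contra hcon
  rw [not_le] at hcon
  have hpos : 0 < v M.γ₁ := zero_lt_one.trans hcon
  have e : M.γ₁ ^ 2 = -(W.a₁ * M.γ₁) + W.a₂ := by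
    linear_combination M.gamma₁_root
  have h3 : v (M.γ₁ ^ 2) ≤ v M.γ₁ := by
    rw [e]
    apply Valuation.map_add_le
    · rw [Valuation.map_neg, map_mul]
      calc v W.a₁ * v M.γ₁ ≤ 1 * v M.γ₁ := mul_le_mul' h1 le_rfl
        _ = v M.γ₁ := one_mul _
    · exact h2.trans hcon.le
  rw [map_pow, pow_two] at h3
  have h4 : v M.γ₁ < v M.γ₁ * v M.γ₁ := by
    calc v M.γ₁ = 1 * v M.γ₁ := (one_mul _).symm
      _ < v M.γ₁ * v M.γ₁ := mul_lt_mul_of_pos_right hcon hpos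
  exact absurd h3 (not_le.mpr h4)

/-- A ring endomorphism fixing `a₁`, `a₂` and acting trivially on the residue field fixes
the branch `γ₁`. -/
lemma map_gamma₁_eq (M : NodeModel2 v W) (σ : K →+* K) (h1 : σ W.a₁ = W.a₁)
    (h2 : σ W.a₂ = W.a₂) (hσ : v (σ M.γ₁ - M.γ₁) < 1) : σ M.γ₁ = M.γ₁ := by
  have hroot : σ M.γ₁ ^ 2 + W.a₁ * σ M.γ₁ - W.a₂ = 0 := by
    have := congrArg σ M.gamma₁_root
    rw [map_sub, map_add, map_pow, map_mul, h1, h2, map_zero] at this
    exact this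
  have hprod : (σ M.γ₁ - M.γ₁) * (σ M.γ₁ - M.γ₂) = 0 := by
    have e : (σ M.γ₁ - M.γ₁) * (σ M.γ₁ - M.γ₂) = σ M.γ₁ ^ 2 + W.a₁ * σ M.γ₁ - W.a₂ := by
      rw [M.ha₁, M.ha₂]; ring
    rw [e, hroot]
  rcases mul_eq_zero.mp hprod with h | h
  · exact sub_eq_zero.mp h
  · exfalso
    have e : σ M.γ₁ - M.γ₁ = M.γ₂ - M.γ₁ := by
      rw [sub_eq_zero.mp h]
    rw [e, val_swap_delta M.hδ] at hσ
    exact lt_irrefl _ hσ

/-- The component of a point is trivial iff the point is `0` or has `1 ≤ v x`. -/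
theorem comp_some_eq_one_iff (M : NodeModel2 v W) {x y : K} (h : W.Nonsingular x y) :
    M.comp (.some x y h) = 1 ↔ 1 ≤ v x := by
  rw [comp_some]
  exact comp2XY_eq_one_iff M.hδ M.ha M.ha0 ((M.equation_iff x y).mp h.1)

variable [DecidableEq K]

/-- The subgroup `E₀` of points with nonsingular reduction. -/
noncomputable def E0 (M : NodeModel2 v W) : AddSubgroup W.Point := M.compHom.ker

lemma mem_E0_iff (M : NodeModel2 v W) (P : W.Point) : P ∈ M.E0 ↔ M.comp P = 1 := by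
  rw [E0, AddMonoidHom.mem_ker]
  exact Iff.rfl

lemma zero_mem_E0 (M : NodeModel2 v W) : (0 : W.Point) ∈ M.E0 := M.E0.zero_mem

lemma some_mem_E0_iff (M : NodeModel2 v W) {x y : K} (h : W.Nonsingular x y) :
    Point.some x y h ∈ M.E0 ↔ 1 ≤ v x := by
  rw [mem_E0_iff, comp_some_eq_one_iff]

/-- Twice a point in the `M`-range has nonsingular reduction. -/
theorem two_nsmul_mem_E0 (M : NodeModel2 v W) {x y : K} (h : W.Nonsingular x y)
    (hx : v x ≤ v W.a₄) : 2 • Point.some x y h ∈ M.E0 := by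
  rw [mem_E0_iff, comp_nsmul, comp_some, comp2XY_of_M M.ha hx, pow_two]
  exact cls_a_mul_self v W.a₄ M.ha0

/-- Torsion points in the middle range: `v x ^ n` is an even power of `v a₄`. -/
theorem torsion_mid (M : NodeModel2 v W) {n : ℕ} {x y : K}
    (h : W.Nonsingular x y) (hP : n • Point.some x y h = 0)
    (hlo : v W.a₄ < v x) (hhi : v x < 1) :
    ∃ j : ℕ, v x ^ n = v W.a₄ ^ (2 * j) := by
  have h0 : v W.a₄ ≠ 0 := (Valuation.ne_zero_iff v).mpr M.ha0
  have hμ : 0 < v W.a₄ := zero_lt_iff.mpr h0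
  rcases Nat.eq_zero_or_pos n with hn0 | hnpos
  · exact ⟨0, by rw [hn0, pow_zero, mul_zero, pow_zero]⟩
  have hc : M.comp (Point.some x y h) ^ n = 1 := by
    rw [← M.comp_nsmul, hP, comp_zero]
  rw [comp_some] at hc
  have hE := (M.equation_iff x y).mp h.1
  have hsq0 : v W.a₄ ^ 2 ≠ 0 := pow_ne_zero 2 h0
  have hsq1 : v W.a₄ ^ 2 < 1 := pow_lt_one₀ zero_le M.ha (by norm_num)
  have hr0 : v x ≠ 0 := (hμ.trans hlo).ne'
  have hrn0 : v x ^ n ≠ 0 := pow_ne_zero n hr0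
  have hcls : cls v W.a₄ (v x) ^ n = 1 := by
    rcases sign_exists hE hlo hhi with hP' | hN'
    · rwa [comp2XY_of_P hlo hhi hP'] at hc
    · rwa [comp2XY_of_N M.hδ hlo hhi hN', inv_pow, inv_eq_one] at hc
  have hcls' : cls v W.a₄ (v x ^ n) = 1 := by
    rw [cls_pow v W.a₄ hr0, hcls]
  obtain ⟨k, hk⟩ := exists_zpow_of_cls_eq_one M.ha0 hrn0 hcls'
  have hlt : v x ^ n < 1 := pow_lt_one₀ zero_le hhi hnpos.ne'
  obtain ⟨j, hj⟩ := exists_pow_of_zpow hsq0 hsq1 hlt hk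
  exact ⟨j, by rw [hj, ← pow_mul]⟩

/-- **Odd torsion near the node**: if `n` is odd, `n • P = 0` and `P` reduces to the node, then
`v a₄ < v x < 1` and `v x ^ n` is an even power of `v a₄`. -/
theorem torsion_near_node (M : NodeModel2 v W) {n : ℕ} (hn : Odd n) {x y : K}
    (h : W.Nonsingular x y) (hP : n • Point.some x y h = 0) (hx : v x < 1) :
    v W.a₄ < v x ∧ ∃ j : ℕ, v x ^ n = v W.a₄ ^ (2 * j) := by
  have hlo : v W.a₄ < v x := by
    by_contra hcon
    rw [not_lt] at hcon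
    have hc : M.comp (Point.some x y h) ^ n = 1 := by
      rw [← M.comp_nsmul, hP, comp_zero]
    rw [comp_some, comp2XY_of_M M.ha hcon] at hc
    obtain ⟨m, rfl⟩ := hn
    have hsq : cls v W.a₄ (v W.a₄) ^ 2 = 1 :=
      (pow_two _).trans (cls_a_mul_self v W.a₄ M.ha0)
    rw [pow_succ, pow_mul, hsq, one_pow, one_mul] at hc
    exact cls_a_ne_one M.ha0 M.ha hc
  exact ⟨hlo, M.torsion_mid h hP hlo hx⟩

end NodeModel2

/-- Over an algebraically closed field, every curve `y² + a₁ x y = x³ + a₂ x² + a₄ x` with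
`v b₂ = 1` and `0 < v a₄ < 1` carries a nodal model. -/
theorem exists_nodeModel2 [IsAlgClosed K] (W : Affine K) (h3 : W.a₃ = 0) (h6 : W.a₆ = 0)
    (hb2 : v W.b₂ = 1) (ha : v W.a₄ < 1) (ha0 : W.a₄ ≠ 0) : Nonempty (NodeModel2 v W) := by
  obtain ⟨g, hg⟩ := IsAlgClosed.exists_root
    (Polynomial.X ^ 2 + Polynomial.C W.a₁ * Polynomial.X - Polynomial.C W.a₂ : Polynomial K)
    (by
      have : (Polynomial.X ^ 2 + Polynomial.C W.a₁ * Polynomial.X - Polynomial.C W.a₂ :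
          Polynomial K).degree = 2 := by
        compute_degree!
      rw [this]; norm_num)
  simp only [Polynomial.IsRoot, Polynomial.eval_sub, Polynomial.eval_add, Polynomial.eval_pow,
    Polynomial.eval_X, Polynomial.eval_mul, Polynomial.eval_C] at hg
  refine ⟨⟨g, -W.a₁ - g, by ring, ?_, h3, h6, ?_, ha, ha0⟩⟩
  · linear_combination -hg
  · have e : (g - (-W.a₁ - g)) ^ 2 = W.b₂ := by
      rw [WeierstrassCurve.b₂]
      linear_combination 4 * hg
    have : v (g - (-W.a₁ - g)) ^ 2 = 1 := by rw [← map_pow, e, hb2]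
    exact (pow_eq_one_iff_of_nonneg zero_le (by norm_num)).mp this

section galois

variable {R S : Type*} [CommRing R] [CommRing S] [DecidableEq K]
  [Algebra R S] [Algebra R K] [Algebra S K] [IsScalarTower R S K]
  {W' : Affine R}

lemma smul_some' (σ : K ≃ₐ[S] K) {x y : K} (h : (W'⁄K).Nonsingular x y) :
    σ • Point.some x y h = Point.some (σ x) (σ y)
      ((W'.baseChange_nonsingular σ.toAlgHom.injective x y).mpr h) :=
  rfl

omit [DecidableEq K] in
lemma algEquiv_map_coeff (σ : K ≃ₐ[S] K) (r : R) :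
    σ (algebraMap R K r) = algebraMap R K r := by
  rw [IsScalarTower.algebraMap_apply R S K, σ.commutes]

/-- **Galois invariance of the component**: an automorphism preserving the valuation and
acting trivially on the residue field preserves the component of every point. -/
theorem NodeModel2.comp_smul (M : NodeModel2 v (W'⁄K)) (σ : K ≃ₐ[S] K)
    (hv : ∀ t : K, v (σ t) = v t) (hσ : ∀ t : K, v t ≤ 1 → v (σ t - t) < 1)
    (h1 : v (W'⁄K).a₁ ≤ 1) (h2 : v (W'⁄K).a₂ ≤ 1) (P : (W'⁄K).Point) :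
    M.comp (σ • P) = M.comp P := by
  have hγ : σ M.γ₁ = M.γ₁ := by
    refine M.map_gamma₁_eq (σ : K →+* K) ?_ ?_ (hσ _ (M.val_gamma₁_le_one h1 h2))
    · exact algEquiv_map_coeff σ W'.a₁
    · exact algEquiv_map_coeff σ W'.a₂
  rcases P with _ | ⟨x, y, h⟩
  · rfl
  · rw [smul_some', NodeModel2.comp_some, NodeModel2.comp_some]
    exact comp2XY_map (σ : K →+* K) hv hγ

/-- **Inertia moves points inside their component**: `σ • P - P` has nonsingular reduction. -/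
theorem NodeModel2.smul_sub_mem_E0 (M : NodeModel2 v (W'⁄K)) (σ : K ≃ₐ[S] K)
    (hv : ∀ t : K, v (σ t) = v t) (hσ : ∀ t : K, v t ≤ 1 → v (σ t - t) < 1)
    (h1 : v (W'⁄K).a₁ ≤ 1) (h2 : v (W'⁄K).a₂ ≤ 1) (P : (W'⁄K).Point) :
    σ • P - P ∈ M.E0 := by
  rw [NodeModel2.mem_E0_iff, NodeModel2.comp_sub, M.comp_smul σ hv hσ h1 h2 P]
  exact mul_inv_cancel _

end galois

end Fermat.Agent.S13.Comp2
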