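import Mathlib.RingTheory.Valuation.RamificationGroup
import Mathlib.FieldTheory.IsAlgClosed.AlgebraicClosure
import Mathlib.FieldTheory.Minpoly.Field
import Mathlib.Tactic

/-!
# The decomposition group preserves the valuation

For an algebraic field extension `L / K`, a valuation subring `A` of `L` and `σ` in the
decomposition group of `A`, we have `A.valuation (σ t) = A.valuation t` for every `t`.
-/

set_option autoImplicit false

namespace Fermat.Agent.S13.ValInv511

open scoped Pointwise

variable {K L : Type*} [Field K] [Field L] [Algebra K L]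

lemma map_mem_iff (A : ValuationSubring L) {σ : L ≃ₐ[K] L}
    (hσ : σ ∈ A.decompositionSubgroup K) (z : L) : σ z ∈ A ↔ z ∈ A := by
  have h : σ • A = A := hσ
  have := ValuationSubring.smul_mem_pointwise_smul_iff (g := σ) (S := A) (x := z)
  rw [h] at this
  exact this

lemma val_map_le_map (A : ValuationSubring L) {σ : L ≃ₐ[K] L}
    (hσ : σ ∈ A.decompositionSubgroup K) {z z' : L}
    (h : A.valuation z ≤ A.valuation z') : A.valuation (σ z) ≤ A.valuation (σ z') := by
  by_cases hz' : z' = 0
  · rw [hz', map_zero, le_zero_iff, map_eq_zero] at h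
    rw [h, map_zero, map_zero]
    exact zero_le
  · have hpos : 0 < A.valuation z' := by rw [Valuation.pos_iff]; exact hz'
    have hσz' : σ z' ≠ 0 := fun h0 => hz' ((map_eq_zero σ).mp h0)
    have hpos' : 0 < A.valuation (σ z') := by rw [Valuation.pos_iff]; exact hσz'
    have h1 : A.valuation (z / z') ≤ 1 := by
      rw [map_div₀]; exact (div_le_one₀ hpos).mpr h
    have h2 : z / z' ∈ A := (A.valuation_le_one_iff _).mp h1
    have h3 : σ (z / z') ∈ A := (map_mem_iff A hσ _).mpr h2
    have h4 : A.valuation (σ z / σ z') ≤ 1 := by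
      rw [← map_div₀]; exact (A.valuation_le_one_iff _).mpr h3
    rw [map_div₀] at h4
    exact (div_le_one₀ hpos').mp h4

/-- Some positive power of `σ` fixes a given algebraic element. -/
lemma exists_pow_apply_eq [Algebra.IsAlgebraic K L] (σ : L ≃ₐ[K] L) (t : L) :
    ∃ m : ℕ, 0 < m ∧ (σ ^ m) t = t := by
  have halg : IsAlgebraic K t := Algebra.IsAlgebraic.isAlgebraic t
  have hint : IsIntegral K t := halg.isIntegral
  have hfin : ((minpoly K t).rootSet L).Finite := Polynomial.rootSet_finite _ _
  have hmem : ∀ k : ℕ, (σ ^ k) t ∈ (minpoly K t).rootSet L := by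
    intro k
    rw [Polynomial.mem_rootSet]
    refine ⟨minpoly.ne_zero hint, ?_⟩
    have : Polynomial.aeval ((σ ^ k) t) (minpoly K t) =
        (σ ^ k) (Polynomial.aeval t (minpoly K t)) :=
      Polynomial.aeval_algHom_apply ((σ ^ k : L ≃ₐ[K] L) : L →ₐ[K] L) t (minpoly K t)
    rw [this, minpoly.aeval, map_zero]
  have : Finite ((minpoly K t).rootSet L) := hfin
  obtain ⟨i, j, hij, he⟩ := Finite.exists_ne_map_eq_of_infinite
    (fun k : ℕ => (⟨(σ ^ k) t, hmem k⟩ : (minpoly K t).rootSet L))
  have he' : (σ ^ i) t = (σ ^ j) t := congrArg Subtype.val he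
  have key : ∀ a b : ℕ, a < b → (σ ^ a) t = (σ ^ b) t → ∃ m : ℕ, 0 < m ∧ (σ ^ m) t = t := by
    intro a b hab h
    refine ⟨b - a, Nat.sub_pos_of_lt hab, ?_⟩
    have e : σ ^ b = σ ^ a * σ ^ (b - a) := by
      rw [← pow_add]; congr 1; omega
    rw [e, AlgEquiv.mul_apply] at h
    exact ((σ ^ a).injective h).symm
  rcases lt_or_gt_of_ne hij with h | h
  · exact key i j h he'
  · exact key j i h he'.symm

/-- **The decomposition group preserves the valuation.** -/
theorem val_map_eq [Algebra.IsAlgebraic K L] (A : ValuationSubring L) {σ : L ≃ₐ[K] L}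
    (hσ : σ ∈ A.decompositionSubgroup K) (t : L) :
    A.valuation (σ t) = A.valuation t := by
  obtain ⟨m, hm, hfix⟩ := exists_pow_apply_eq σ t
  have hsucc : ∀ k : ℕ, (σ ^ (k + 1)) t = σ ((σ ^ k) t) := by
    intro k
    rw [pow_succ', AlgEquiv.mul_apply]
  rcases le_total (A.valuation (σ t)) (A.valuation t) with h | h
  · -- the sequence is antitone
    have hstep : ∀ k : ℕ, A.valuation ((σ ^ (k + 1)) t) ≤ A.valuation ((σ ^ k) t) := by
      intro k
      induction k with
      | zero => simpa using h
      | succ k ih =>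
        have := val_map_le_map A hσ ih
        rwa [← hsucc (k + 1), ← hsucc k] at this
    have hanti : ∀ k : ℕ, A.valuation ((σ ^ (k + 1)) t) ≤ A.valuation (σ t) := by
      intro k
      induction k with
      | zero => simp
      | succ k ih => exact (hstep (k + 1)).trans ih
    obtain ⟨m', rfl⟩ : ∃ m', m = m' + 1 := ⟨m - 1, by omega⟩
    have := hanti m'
    rw [hfix] at this
    exact le_antisymm h this
  · have hstep : ∀ k : ℕ, A.valuation ((σ ^ k) t) ≤ A.valuation ((σ ^ (k + 1)) t) := by
      intro k
      induction k with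
      | zero => simpa using h
      | succ k ih =>
        have := val_map_le_map A hσ ih
        rwa [← hsucc (k + 1), ← hsucc k] at this
    have hmono : ∀ k : ℕ, A.valuation (σ t) ≤ A.valuation ((σ ^ (k + 1)) t) := by
      intro k
      induction k with
      | zero => simp
      | succ k ih => exact ih.trans (hstep (k + 1))
    obtain ⟨m', rfl⟩ : ∃ m', m = m' + 1 := ⟨m - 1, by omega⟩
    have := hmono m'
    rw [hfix] at this
    exact le_antisymm this h

end Fermat.Agent.S13.ValInv511
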