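import Fermat.Agent.S13.Comp2Torsion
import Fermat.Agent.S13.ValInv511
import Fermat.Agent.S13.Skel
import Fermat.Agent.S05.AssembleFinal
import Fermat.Agent.S05.C1b
import Fermat.Agent.S05.GoodRed

/-!
# The Frey curve at the prime `2`: inertia is unipotent on `E[p]` (S13/T4)
-/

set_option autoImplicit false

namespace Fermat.Agent.S13.AtTwo511

open WeierstrassCurve WeierstrassCurve.Affine WeierstrassCurve.Affine.Point
open Fermat.Agent.S05 Fermat.Agent.S05.Assemble Fermat.Agent.S05.SameRed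
open Fermat.Agent.S13.Comp2

section arithmetic

variable (P : FreyPackage)

lemma two_dvd_b : (2 : ℤ) ∣ P.b := (ZMod.intCast_zmod_eq_zero_iff_dvd P.b 2).1 P.hb2

lemma not_two_dvd_a : ¬ (2 : ℤ) ∣ P.a := by
  rintro ⟨k, hk⟩
  have h := P.ha4
  rw [hk] at h
  push_cast at h
  have h2 : (2 : ZMod 4) * ((2 : ZMod 4) * (k : ZMod 4)) = 2 * 3 := by rw [h]
  rw [← mul_assoc] at h2
  have h4 : (2 : ZMod 4) * 2 = 0 := by decide
  rw [h4, zero_mul] at h2
  exact absurd h2 (by decide)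

lemma four_dvd_a₂_num : (4 : ℤ) ∣ P.b ^ P.p - 1 - P.a ^ P.p := by
  have hb : (4 : ℤ) ∣ P.b ^ P.p := by
    have h1 : (2 : ℤ) ^ P.p ∣ P.b ^ P.p := pow_dvd_pow_of_dvd (two_dvd_b P) _
    have h2 : (2 : ℤ) ^ 2 ∣ 2 ^ P.p := pow_dvd_pow 2 (by have := P.hp5; omega)
    have h3 : (4 : ℤ) = 2 ^ 2 := by norm_num
    rw [h3]
    exact h2.trans h1
  have ha : (4 : ℤ) ∣ P.a ^ P.p + 1 := by
    have h0 : ((P.a ^ P.p + 1 : ℤ) : ZMod 4) = 0 := by
      push_cast
      rw [P.ha4]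
      have h3 : (3 : ZMod 4) = -1 := by decide
      rw [h3, P.hp_odd.neg_one_pow]
      ring
    exact_mod_cast (ZMod.intCast_zmod_eq_zero_iff_dvd _ 4).mp h0
  have e : P.b ^ P.p - 1 - P.a ^ P.p = P.b ^ P.p - (P.a ^ P.p + 1) := by ring
  rw [e]
  exact dvd_sub hb ha

lemma thirtytwo_dvd_b_pow : (32 : ℤ) ∣ P.b ^ P.p := by
  have h1 : (2 : ℤ) ^ P.p ∣ P.b ^ P.p := pow_dvd_pow_of_dvd (two_dvd_b P) _
  have h2 : (2 : ℤ) ^ 5 ∣ 2 ^ P.p := pow_dvd_pow 2 P.hp5
  have h3 : (32 : ℤ) = 2 ^ 5 := by norm_num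
  rw [h3]
  exact h2.trans h1

lemma not_two_dvd_b₂ : ¬ (2 : ℤ) ∣ P.b ^ P.p - P.a ^ P.p := by
  intro h
  have hb : (2 : ℤ) ∣ P.b ^ P.p := dvd_pow (two_dvd_b P) P.hp0
  have ha : (2 : ℤ) ∣ P.a ^ P.p := by
    have := dvd_sub hb h
    simpa using this
  exact not_two_dvd_a P (Int.prime_two.dvd_of_dvd_pow ha)

end arithmetic

section valuations

variable (P : FreyPackage) {A : ValuationSubring Qb}

lemma val_two_lt_one (hA : A.LiesOverPrime 2) : A.valuation (2 : Qb) < 1 := by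
  have := (A.mem_nonunits_iff).mp hA
  simpa using this

lemma frey_a₂_int : ∃ m : ℤ, (P.freyCurve⁄Qb).a₂ = (m : Qb) := by
  obtain ⟨m, hm⟩ := four_dvd_a₂_num P
  refine ⟨m, ?_⟩
  rw [frey_a₂]
  have h : fB P - 1 - fA P = 4 * (m : Qb) := by
    simp only [fA, fB]
    exact_mod_cast congrArg (Int.cast : ℤ → Qb) hm
  rw [h]
  field_simp

lemma frey_a₄_int : ∃ m : ℤ, (P.freyCurve⁄Qb).a₄ = 2 * (m : Qb) := by
  obtain ⟨m, hm⟩ := thirtytwo_dvd_b_pow P
  refine ⟨-(P.a ^ P.p * m), ?_⟩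
  rw [frey_a₄]
  have h : fB P = 32 * (m : Qb) := by
    simp only [fB]
    exact_mod_cast congrArg (Int.cast : ℤ → Qb) hm
  rw [h]
  simp only [fA]
  push_cast
  ring

lemma frey_a₄_ne_zero : (P.freyCurve⁄Qb).a₄ ≠ 0 := by
  rw [frey_a₄]
  exact div_ne_zero (mul_ne_zero (neg_ne_zero.mpr (fA_ne_zero P)) (fB_ne_zero P)) (by norm_num)

lemma val_frey_a₄_lt_one (hA : A.LiesOverPrime 2) :
    A.valuation (P.freyCurve⁄Qb).a₄ < 1 := by
  obtain ⟨m, hm⟩ := frey_a₄_int P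
  rw [hm, map_mul]
  exact (mul_le_of_le_one_right' (val_int_le_one m)).trans_lt (val_two_lt_one hA)

lemma frey_b₂ : (P.freyCurve⁄Qb).b₂ = ((P.b ^ P.p - P.a ^ P.p : ℤ) : Qb) := by
  rw [WeierstrassCurve.b₂, frey_a₁, frey_a₂]
  simp only [fA, fB]
  push_cast
  field_simp
  ring

lemma val_frey_b₂ (hA : A.LiesOverPrime 2) : A.valuation (P.freyCurve⁄Qb).b₂ = 1 := by
  rw [frey_b₂]
  exact val_int_eq_one hA Nat.prime_two (by exact_mod_cast not_two_dvd_b₂ P)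

lemma frey_integral_two (hA : A.LiesOverPrime 2) :
    IntegralCoeffs (P.freyCurve⁄Qb) A.valuation := by
  refine ⟨?_, ?_, ?_, ?_, ?_⟩
  · rw [frey_a₁, map_one]
  · obtain ⟨m, hm⟩ := frey_a₂_int P
    rw [hm]; exact val_int_le_one m
  · rw [frey_a₃, _root_.map_zero]; exact zero_le_one
  · exact (val_frey_a₄_lt_one P hA).le
  · rw [frey_a₆, _root_.map_zero]; exact zero_le_one

lemma val_p_eq_one_two (hA : A.LiesOverPrime 2) : A.valuation (P.p : Qb) = 1 := by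
  refine val_nat_eq_one hA Nat.prime_two ?_
  intro h
  have := (Nat.prime_dvd_prime_iff_eq Nat.prime_two P.pp).mp h
  have := P.hp5
  omega

/-- The nodal model of the Frey curve at a place over `2`. -/
lemma exists_frey_nodeModel2 (hA : A.LiesOverPrime 2) :
    Nonempty (NodeModel2 A.valuation (P.freyCurve⁄Qb)) :=
  exists_nodeModel2 _ (frey_a₃ P) (frey_a₆ P) (val_frey_b₂ P hA) (val_frey_a₄_lt_one P hA)
    (frey_a₄_ne_zero P)

end valuations

section inertia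

variable (P : FreyPackage) {A : ValuationSubring Qb}

lemma mem_decomposition_of_mem_inertia {σ : Qb ≃ₐ[ℚ] Qb} (hσ : σ ∈ A.inertiaSubgroupIn ℚ) :
    σ ∈ A.decompositionSubgroup ℚ := by
  obtain ⟨g, -, rfl⟩ := hσ
  exact g.2

/-- A `p`-torsion point with nonsingular reduction at `2` is fixed by inertia. -/
theorem smul_eq_self_of_mem_E0 (hA : A.LiesOverPrime 2)
    (M : NodeModel2 A.valuation (P.freyCurve⁄Qb))
    {σ : Qb ≃ₐ[ℚ] Qb} (hσ : σ ∈ A.inertiaSubgroupIn ℚ)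
    (Q : (P.freyCurve⁄Qb).Point) (hQ : Q ∈ M.E0) (hQp : (P.p : ℤ) • Q = 0) :
    σ • Q = Q := by
  have hW := frey_integral_two P hA
  have hp1 := val_p_eq_one_two P hA
  have hres := inertia_res A hσ
  have hC1 : ∀ R : (P.freyCurve⁄Qb).Point, InKer (P.freyCurve⁄Qb) A.valuation R →
      (P.p : ℤ) • R = 0 → R = 0 :=
    fun R hR h => C1b.eq_zero_of_inKer_of_zsmul_eq_zero hW P.p hp1 R hR h
  rcases Q with _ | ⟨x, y, h⟩
  · rfl
  · have hx1 : 1 ≤ A.valuation x := (M.some_mem_E0_iff h).mp hQ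
    have hQp' : P.p • Point.some x y h = 0 := by rwa [natCast_zsmul] at hQp
    obtain ⟨hx, hy⟩ := C1b.val_x_le_one_of_nsmul_eq_zero hW hp1 h hQp'
    have hxe : A.valuation x = 1 := le_antisymm hx hx1
    refine GoodRed.smul_eq_self_of_nonsingular_reduction hW σ hres (P.p : ℤ) hC1 h hx
      (Or.inr ?_) hQp
    rw [frey_a₁, frey_a₃, add_zero, one_mul]
    have h2y : A.valuation (2 * y) < 1 := by
      rw [map_mul]
      exact (mul_le_of_le_one_right' hy).trans_lt (val_two_lt_one hA)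
    rw [Valuation.map_add_eq_of_lt_right _ (by rw [hxe]; exact h2y), hxe]

/-- **S13/T4, pointwise form**: for every place over `2` and every `σ` in its inertia group,
`(σ - 1)² = 0` on `E[p]`. -/
theorem unipotent_at_two_point (hA : A.LiesOverPrime 2)
    {σ : Qb ≃ₐ[ℚ] Qb} (hσ : σ ∈ A.inertiaSubgroupIn ℚ)
    (pt : (P.freyCurve⁄Qb).Point) (hpt : (P.p : ℤ) • pt = 0) :
    σ • (σ • pt - pt) = σ • pt - pt := by
  obtain ⟨M⟩ := exists_frey_nodeModel2 P hA
  have hW := frey_integral_two P hA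
  have hdec := mem_decomposition_of_mem_inertia hσ
  haveI : Algebra.IsAlgebraic ℚ Qb := AlgebraicClosure.isAlgebraic ℚ
  have hv : ∀ t : Qb, A.valuation (σ t) = A.valuation t :=
    fun t => ValInv511.val_map_eq A hdec t
  have hres := inertia_res A hσ
  have hQ : σ • pt - pt ∈ M.E0 := M.smul_sub_mem_E0 σ hv hres hW.a₁ hW.a₂ pt
  have hQp : (P.p : ℤ) • (σ • pt - pt) = 0 := by
    rw [zsmul_sub, ← Point.algEquiv_smul_zsmul, hpt, smul_zero, sub_zero]
  exact smul_eq_self_of_mem_E0 P hA M hσ _ hQ hQp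

/-- **S13/T4** for every place over `2`, in the shape of `Skel.result_of_parts`. -/
theorem unipotent_at_two (hA : A.LiesOverPrime 2)
    {σ : Qb ≃ₐ[ℚ] Qb} (hσ : σ ∈ A.inertiaSubgroupIn ℚ) (x : Skel.Vp P) :
    σ • (σ • x - x) = σ • x - x := by
  obtain ⟨pt, hpt⟩ := x
  apply Subtype.ext
  have hpt' : (P.p : ℤ) • pt = 0 := (Submodule.mem_torsionBy_iff _ _).mp hpt
  exact unipotent_at_two_point P hA hσ pt hpt'

end inertia

end Fermat.Agent.S13.AtTwo511
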