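import Mathlib.RingTheory.Valuation.Basic
import Mathlib.Tactic

/-!
# Core valuation lemmas for the component homomorphism at a node, any residue characteristic

Abstract setting: a field `K` with a valuation `v`, a cubic
`(y - γ₁ x) (y - γ₂ x) = x (x ^ 2 + a)` with `v a < 1`, `a ≠ 0`, `v (γ₁ - γ₂) = 1`
(no hypothesis on `v 2`).  Three collinear points `(xᵢ, yᵢ)` on the line `y = l x + n`
satisfy Vieta's relations.

This is the analogue, valid in residue characteristic `2`, of the odd residue characteristic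
development `Fermat.Agent.S05.Comp`.
-/

set_option autoImplicit false

namespace Fermat.Agent.S13.Comp2

variable {K : Type*} [Field K] {Γ₀ : Type*} [LinearOrderedCommGroupWithZero Γ₀]
  {v : Valuation K Γ₀}

/-- The data of three collinear points on the cubic `(y - γ₁ x) (y - γ₂ x) = x (x ^ 2 + a)`. -/
structure Coll2 (a γ₁ γ₂ : K) (x₁ y₁ x₂ y₂ x₃ y₃ l n : K) : Prop where
  L1 : y₁ = l * x₁ + n
  L2 : y₂ = l * x₂ + n
  L3 : y₃ = l * x₃ + n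
  E1 : (y₁ - γ₁ * x₁) * (y₁ - γ₂ * x₁) = x₁ * (x₁ ^ 2 + a)
  E2 : (y₂ - γ₁ * x₂) * (y₂ - γ₂ * x₂) = x₂ * (x₂ ^ 2 + a)
  E3 : (y₃ - γ₁ * x₃) * (y₃ - γ₂ * x₃) = x₃ * (x₃ ^ 2 + a)
  V1 : x₁ + x₂ + x₃ = (l - γ₁) * (l - γ₂)
  V2 : x₁ * x₂ + x₁ * x₃ + x₂ * x₃ = a - n * ((l - γ₁) + (l - γ₂))
  V3 : x₁ * x₂ * x₃ = n ^ 2

namespace Coll2

variable {a γ₁ γ₂ x₁ y₁ x₂ y₂ x₃ y₃ l n : K}

lemma swap12 (h : Coll2 a γ₁ γ₂ x₁ y₁ x₂ y₂ x₃ y₃ l n) :
    Coll2 a γ₁ γ₂ x₂ y₂ x₁ y₁ x₃ y₃ l n where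
  L1 := h.L2
  L2 := h.L1
  L3 := h.L3
  E1 := h.E2
  E2 := h.E1
  E3 := h.E3
  V1 := by rw [← h.V1]; ring
  V2 := by rw [← h.V2]; ring
  V3 := by rw [← h.V3]; ring

lemma swap23 (h : Coll2 a γ₁ γ₂ x₁ y₁ x₂ y₂ x₃ y₃ l n) :
    Coll2 a γ₁ γ₂ x₁ y₁ x₃ y₃ x₂ y₂ l n where
  L1 := h.L1
  L2 := h.L3
  L3 := h.L2
  E1 := h.E1
  E2 := h.E3
  E3 := h.E2
  V1 := by rw [← h.V1]; ring
  V2 := by rw [← h.V2]; ring
  V3 := by rw [← h.V3]; ring

lemma swap13 (h : Coll2 a γ₁ γ₂ x₁ y₁ x₂ y₂ x₃ y₃ l n) :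
    Coll2 a γ₁ γ₂ x₃ y₃ x₂ y₂ x₁ y₁ l n where
  L1 := h.L3
  L2 := h.L2
  L3 := h.L1
  E1 := h.E3
  E2 := h.E2
  E3 := h.E1
  V1 := by rw [← h.V1]; ring
  V2 := by rw [← h.V2]; ring
  V3 := by rw [← h.V3]; ring

lemma rot (h : Coll2 a γ₁ γ₂ x₁ y₁ x₂ y₂ x₃ y₃ l n) :
    Coll2 a γ₁ γ₂ x₂ y₂ x₃ y₃ x₁ y₁ l n :=
  h.swap12.swap23

lemma rot' (h : Coll2 a γ₁ γ₂ x₁ y₁ x₂ y₂ x₃ y₃ l n) :
    Coll2 a γ₁ γ₂ x₃ y₃ x₁ y₁ x₂ y₂ l n :=
  h.swap23.swap12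

/-- Exchanging the two branches. -/
lemma flip (h : Coll2 a γ₁ γ₂ x₁ y₁ x₂ y₂ x₃ y₃ l n) :
    Coll2 a γ₂ γ₁ x₁ y₁ x₂ y₂ x₃ y₃ l n where
  L1 := h.L1
  L2 := h.L2
  L3 := h.L3
  E1 := by rw [← h.E1]; ring
  E2 := by rw [← h.E2]; ring
  E3 := by rw [← h.E3]; ring
  V1 := by rw [h.V1]; ring
  V2 := by rw [h.V2]; ring
  V3 := h.V3

end Coll2

variable {a γ₁ γ₂ x₁ y₁ x₂ y₂ x₃ y₃ l n : K}

lemma val_add3_le {p q r : K} {g : Γ₀} (hp : v p ≤ g) (hq : v q ≤ g) (hr : v r ≤ g) :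
    v (p + q + r) ≤ g :=
  Valuation.map_add_le _ (Valuation.map_add_le _ hp hq) hr

lemma val_add3_lt {p q r : K} {g : Γ₀} (hp : v p < g) (hq : v q < g) (hr : v r < g) :
    v (p + q + r) < g :=
  Valuation.map_add_lt _ (Valuation.map_add_lt _ hp hq) hr

lemma val_two_le_one : v (2 : K) ≤ 1 := by
  have e : (2 : K) = 1 + 1 := by norm_num
  rw [e]
  exact Valuation.map_add_le _ (by rw [map_one]) (by rw [map_one])

lemma val_four_le_one : v (4 : K) ≤ 1 := by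
  have e : (4 : K) = 2 * 2 := by norm_num
  rw [e, map_mul]
  exact mul_le_one' val_two_le_one val_two_le_one

lemma val_swap_delta (hδ : v (γ₁ - γ₂) = 1) : v (γ₂ - γ₁) = 1 := by
  rw [← Valuation.map_neg, neg_sub]; exact hδ

lemma Coll2.vs_vn (h : Coll2 a γ₁ γ₂ x₁ y₁ x₂ y₂ x₃ y₃ l n) :
    v n * v ((l - γ₁) + (l - γ₂)) = v (a - (x₁ * x₂ + x₁ * x₃ + x₂ * x₃)) := by
  rw [h.V2]
  have e : a - (a - n * ((l - γ₁) + (l - γ₂))) = n * ((l - γ₁) + (l - γ₂)) := by ring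
  rw [e, map_mul]

lemma Coll2.vn_sq (h : Coll2 a γ₁ γ₂ x₁ y₁ x₂ y₂ x₃ y₃ l n) :
    v n ^ 2 = v x₁ * v x₂ * v x₃ := by
  rw [← map_pow, ← h.V3, map_mul, map_mul]

lemma Coll2.s_sq (h : Coll2 a γ₁ γ₂ x₁ y₁ x₂ y₂ x₃ y₃ l n) :
    ((l - γ₁) + (l - γ₂)) ^ 2 = (γ₁ - γ₂) ^ 2 + 4 * (x₁ + x₂ + x₃) := by
  rw [h.V1]; ring

/-- If all three points are at the node then exactly one of `l - γ₁`, `l - γ₂` is small. -/
lemma Coll2.kappa_dichotomy (h : Coll2 a γ₁ γ₂ x₁ y₁ x₂ y₂ x₃ y₃ l n)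
    (hδ : v (γ₁ - γ₂) = 1) (h1 : v x₁ < 1) (h2 : v x₂ < 1) (h3 : v x₃ < 1) :
    (v (l - γ₁) < 1 ∧ v (l - γ₂) = 1) ∨ (v (l - γ₁) = 1 ∧ v (l - γ₂) < 1) := by
  have hprod : v ((l - γ₁) * (l - γ₂)) < 1 := by
    rw [← h.V1]; exact val_add3_lt h1 h2 h3
  rcases lt_or_ge (v (l - γ₁)) 1 with hk | hk
  · left
    refine ⟨hk, ?_⟩
    have e : l - γ₂ = (l - γ₁) + (γ₁ - γ₂) := by ring
    rw [e, Valuation.map_add_eq_of_lt_right _ (by rw [hδ]; exact hk), hδ]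
  · right
    have hk' : v (l - γ₂) < 1 := by
      by_contra hcon
      rw [not_lt] at hcon
      rw [map_mul] at hprod
      exact absurd (one_le_mul_of_one_le_of_one_le hk hcon) (not_le.mpr hprod)
    refine ⟨?_, hk'⟩
    have e : l - γ₁ = (l - γ₂) + (γ₂ - γ₁) := by ring
    rw [e, Valuation.map_add_eq_of_lt_right _ (by rw [val_swap_delta hδ]; exact hk'),
      val_swap_delta hδ]

/-- If all three points are at the node then `v ((l - γ₁) + (l - γ₂)) = 1`. -/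
lemma Coll2.vs_eq_one (h : Coll2 a γ₁ γ₂ x₁ y₁ x₂ y₂ x₃ y₃ l n)
    (hδ : v (γ₁ - γ₂) = 1) (h1 : v x₁ < 1) (h2 : v x₂ < 1) (h3 : v x₃ < 1) :
    v ((l - γ₁) + (l - γ₂)) = 1 := by
  rcases h.kappa_dichotomy hδ h1 h2 h3 with ⟨hk, hk'⟩ | ⟨hk, hk'⟩
  · rw [Valuation.map_add_eq_of_lt_right _ (by rw [hk']; exact hk), hk']
  · rw [Valuation.map_add_eq_of_lt_left _ (by rw [hk]; exact hk'), hk]

/-- If all three points are at the node then `v (l - γ₁) ≤ 1`. -/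
lemma Coll2.vk_le_one (h : Coll2 a γ₁ γ₂ x₁ y₁ x₂ y₂ x₃ y₃ l n)
    (hδ : v (γ₁ - γ₂) = 1) (h1 : v x₁ < 1) (h2 : v x₂ < 1) (h3 : v x₃ < 1) :
    v (l - γ₁) ≤ 1 := by
  rcases h.kappa_dichotomy hδ h1 h2 h3 with ⟨hk, -⟩ | ⟨hk, -⟩
  · exact hk.le
  · exact hk.le

/-- Key inequality: if `x₁` is strictly smaller than `x₂, x₃`, `x₃` is not at the node and
`v a < v x₂ * v x₃`, contradiction. Covers "exactly one point at the node" and
"two at the node with different valuations". -/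
lemma factD (h : Coll2 a γ₁ γ₂ x₁ y₁ x₂ y₂ x₃ y₃ l n) (hδ : v (γ₁ - γ₂) = 1)
    (h12 : v x₁ < v x₂) (h13 : v x₁ < v x₃) (h23 : v x₂ ≤ v x₃) (h3 : 1 ≤ v x₃)
    (hμ : v a < v x₂ * v x₃) : False := by
  have hr2 : 0 < v x₂ := lt_of_le_of_lt zero_le h12
  have hr3 : 0 < v x₃ := lt_of_lt_of_le zero_lt_one h3
  have hne : v x₂ * v x₃ ≠ 0 := (mul_pos hr2 hr3).ne'
  have hd1 : v (x₁ * x₂) < v (x₂ * x₃) := by
    rw [map_mul, map_mul, mul_comm (v x₁)]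
    exact mul_lt_mul_of_pos_left h13 hr2
  have hd2 : v (x₁ * x₃) < v (x₂ * x₃) := by
    rw [map_mul, map_mul]
    exact mul_lt_mul_of_pos_right h12 hr3
  have ha : v a < v (x₂ * x₃) := by rw [map_mul]; exact hμ
  have hsn : v n * v ((l - γ₁) + (l - γ₂)) = v x₂ * v x₃ := by
    rw [h.vs_vn, ← map_mul]
    have e : a - (x₁ * x₂ + x₁ * x₃ + x₂ * x₃) = (a - (x₁ * x₂ + x₁ * x₃)) - x₂ * x₃ := by
      ring
    rw [e]
    apply Valuation.map_sub_eq_of_lt_right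
    exact Valuation.map_sub_lt _ ha (Valuation.map_add_lt _ hd1 hd2)
  have hs2 : v ((l - γ₁) + (l - γ₂)) ^ 2 * v x₁ = v x₂ * v x₃ := by
    have e1 : (v n * v ((l - γ₁) + (l - γ₂))) ^ 2 = (v x₂ * v x₃) ^ 2 := by rw [hsn]
    rw [mul_pow, h.vn_sq] at e1
    have e2 : (v ((l - γ₁) + (l - γ₂)) ^ 2 * v x₁) * (v x₂ * v x₃) =
        (v x₂ * v x₃) * (v x₂ * v x₃) := by
      rw [← pow_two, ← e1]; ac_rfl
    exact mul_right_cancel₀ hne e2
  have hs2le : v ((l - γ₁) + (l - γ₂)) ^ 2 ≤ v x₃ := by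
    rw [← map_pow, h.s_sq]
    refine Valuation.map_add_le _ ?_ ?_
    · rw [map_pow, hδ, one_pow]; exact h3
    · rw [map_mul]
      calc v 4 * v (x₁ + x₂ + x₃) ≤ 1 * v (x₁ + x₂ + x₃) :=
            mul_le_mul' val_four_le_one le_rfl
        _ = v (x₁ + x₂ + x₃) := one_mul _
        _ ≤ v x₃ := val_add3_le h13.le h23 le_rfl
  have : v ((l - γ₁) + (l - γ₂)) ^ 2 * v x₁ < v x₂ * v x₃ := by
    rcases eq_or_ne (v ((l - γ₁) + (l - γ₂)) ^ 2) 0 with h0 | h0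
    · rw [h0, zero_mul]; exact mul_pos hr2 hr3
    · calc v ((l - γ₁) + (l - γ₂)) ^ 2 * v x₁
          < v ((l - γ₁) + (l - γ₂)) ^ 2 * v x₂ :=
            mul_lt_mul_of_pos_left h12 (zero_lt_iff.mpr h0)
        _ ≤ v x₃ * v x₂ := mul_le_mul' hs2le le_rfl
        _ = v x₂ * v x₃ := mul_comm _ _
  exact absurd hs2 this.ne

/-- Exactly one point at the node is impossible. -/
lemma factC (h : Coll2 a γ₁ γ₂ x₁ y₁ x₂ y₂ x₃ y₃ l n) (hδ : v (γ₁ - γ₂) = 1)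
    (ha : v a < 1) (h1 : v x₁ < 1) (h2' : 1 ≤ v x₂) (h3 : 1 ≤ v x₃) : False := by
  have h23 : 1 ≤ v x₂ * v x₃ := one_le_mul_of_one_le_of_one_le h2' h3
  rcases le_total (v x₂) (v x₃) with h' | h'
  · exact factD h hδ (lt_of_lt_of_le h1 h2') (lt_of_lt_of_le h1 h3) h' h3
      (lt_of_lt_of_le ha h23)
  · exact factD h.swap23 hδ (lt_of_lt_of_le h1 h3) (lt_of_lt_of_le h1 h2') h' h2'
      (lt_of_lt_of_le ha (by rwa [mul_comm]))

/-- All three points in the `M`-range (`v x ≤ v a`) is impossible. -/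
lemma factMMM (h : Coll2 a γ₁ γ₂ x₁ y₁ x₂ y₂ x₃ y₃ l n) (hδ : v (γ₁ - γ₂) = 1)
    (ha : v a < 1) (ha0 : a ≠ 0)
    (h1 : v x₁ ≤ v a) (h2' : v x₂ ≤ v a) (h3 : v x₃ ≤ v a) : False := by
  have hμ : 0 < v a := by rw [Valuation.pos_iff]; exact ha0
  have hs : v ((l - γ₁) + (l - γ₂)) = 1 :=
    h.vs_eq_one hδ (h1.trans_lt ha) (h2'.trans_lt ha) (h3.trans_lt ha)
  have hn : v n < v a := by
    by_contra hcon
    rw [not_lt] at hcon
    have e1 : v a ^ 2 ≤ v n ^ 2 := pow_le_pow_left₀ zero_le hcon 2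
    rw [h.vn_sq] at e1
    have e2 : v x₁ * v x₂ * v x₃ ≤ v a * v a * v a :=
      mul_le_mul' (mul_le_mul' h1 h2') h3
    have e3 : v a * v a * v a < v a ^ 2 := by
      rw [pow_two]
      calc v a * v a * v a < v a * v a * 1 := mul_lt_mul_of_pos_left ha (mul_pos hμ hμ)
        _ = v a * v a := mul_one _
    exact absurd (e1.trans e2) (not_le.mpr e3)
  have hsn := h.vs_vn (v := v)
  rw [hs, mul_one] at hsn
  have hsum : v (x₁ * x₂ + x₁ * x₃ + x₂ * x₃) < v a := by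
    have hh : ∀ p q : K, v p ≤ v a → v q ≤ v a → v (p * q) < v a := by
      intro p q hp hq
      rw [map_mul]
      calc v p * v q ≤ v a * v a := mul_le_mul' hp hq
        _ < v a * 1 := mul_lt_mul_of_pos_left ha hμ
        _ = v a := mul_one _
    exact val_add3_lt (hh _ _ h1 h2') (hh _ _ h1 h3) (hh _ _ h2' h3)
  rw [Valuation.map_sub_eq_of_lt_left _ hsum] at hsn
  exact absurd hsn hn.ne

/-- Two points in the `M`-range and one at the node is impossible. -/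
lemma factMMmid (h : Coll2 a γ₁ γ₂ x₁ y₁ x₂ y₂ x₃ y₃ l n) (hδ : v (γ₁ - γ₂) = 1)
    (ha : v a < 1) (ha0 : a ≠ 0)
    (h1 : v x₁ ≤ v a) (h2' : v x₂ ≤ v a) (h3 : v x₃ < 1) : False := by
  have hμ : 0 < v a := by rw [Valuation.pos_iff]; exact ha0
  have hs : v ((l - γ₁) + (l - γ₂)) = 1 :=
    h.vs_eq_one hδ (h1.trans_lt ha) (h2'.trans_lt ha) h3
  have hsn := h.vs_vn (v := v)
  rw [hs, mul_one] at hsn
  have hh : ∀ p q : K, v p ≤ v a → v q < 1 → v (p * q) < v a := by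
    intro p q hp hq
    rw [map_mul]
    calc v p * v q ≤ v a * v q := mul_le_mul' hp le_rfl
      _ < v a * 1 := mul_lt_mul_of_pos_left hq hμ
      _ = v a := mul_one _
  have hsum : v (x₁ * x₂ + x₁ * x₃ + x₂ * x₃) < v a :=
    val_add3_lt (hh _ _ h1 (h2'.trans_lt ha)) (hh _ _ h1 h3) (hh _ _ h2' h3)
  rw [Valuation.map_sub_eq_of_lt_left _ hsum] at hsn
  have e1 := h.vn_sq (v := v)
  rw [hsn] at e1
  have e2 : v x₁ * v x₂ * v x₃ < v a ^ 2 := by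
    rw [pow_two]
    calc v x₁ * v x₂ * v x₃ ≤ v a * v a * v x₃ := mul_le_mul' (mul_le_mul' h1 h2') le_rfl
      _ < v a * v a * 1 := mul_lt_mul_of_pos_left h3 (mul_pos hμ hμ)
      _ = v a * v a := mul_one _
  exact absurd e1.symm e2.ne

/-- In the middle range, one of the two branches of the node is chosen. -/
lemma sign_exists {x y : K}
    (hE : (y - γ₁ * x) * (y - γ₂ * x) = x * (x ^ 2 + a)) (hlo : v a < v x) (hhi : v x < 1) :
    v (y - γ₁ * x) < v x ∨ v (y - γ₂ * x) < v x := by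
  have hx : 0 < v x := lt_of_le_of_lt zero_le hlo
  have h1 : v (x ^ 2 + a) < v x := by
    apply Valuation.map_add_lt _ _ hlo
    rw [map_pow, pow_two]
    calc v x * v x < v x * 1 := mul_lt_mul_of_pos_left hhi hx
      _ = v x := mul_one _
  by_contra hcon
  rw [not_or, not_lt, not_lt] at hcon
  have h2 : v x * v x ≤ v ((y - γ₁ * x) * (y - γ₂ * x)) := by
    rw [map_mul]; exact mul_le_mul' hcon.1 hcon.2
  rw [hE, map_mul] at h2
  exact absurd h2 (not_le.mpr (mul_lt_mul_of_pos_left h1 hx))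

/-- In the middle range, the two branches of the node are exclusive. -/
lemma sign_exclusive {x y : K} (hδ : v (γ₁ - γ₂) = 1) :
    ¬ (v (y - γ₁ * x) < v x ∧ v (y - γ₂ * x) < v x) := by
  rintro ⟨h1, h3⟩
  have e : (γ₁ - γ₂) * x = (y - γ₂ * x) - (y - γ₁ * x) := by ring
  have h4 : v ((γ₁ - γ₂) * x) < v x := by
    rw [e]; exact Valuation.map_sub_lt _ h3 h1
  rw [map_mul, hδ, one_mul] at h4
  exact lt_irrefl _ h4

/-- Two points at the node with the same valuation `< 1` and third point away from the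
node cannot lie on the same branch. -/
lemma factBsign (h : Coll2 a γ₁ γ₂ x₁ y₁ x₂ y₂ x₃ y₃ l n) (hδ : v (γ₁ - γ₂) = 1)
    (h12 : v x₁ = v x₂) (h1 : v x₁ < 1) (hx1 : x₁ ≠ 0) (h3 : 1 ≤ v x₃)
    (hP1 : v (y₁ - γ₁ * x₁) < v x₁) (hP2 : v (y₂ - γ₁ * x₂) < v x₂) : False := by
  have hr : 0 < v x₁ := by rw [Valuation.pos_iff]; exact hx1
  set κ := l - γ₁ with hκ
  set θ₁ := y₁ - γ₁ * x₁ with hθ₁
  set θ₂ := y₂ - γ₁ * x₂ with hθ₂
  set δ := -x₁ - x₂ with hδ'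
  have hθ₁' : θ₁ = κ * x₁ + n := by rw [hθ₁, h.L1, hκ]; ring
  have hθ₂' : θ₂ = κ * x₂ + n := by rw [hθ₂, h.L2, hκ]; ring
  have hx3 : x₃ = κ ^ 2 + (γ₁ - γ₂) * κ + δ := by
    have := h.V1
    have e : x₃ = (l - γ₁) * (l - γ₂) - x₁ - x₂ := by rw [← this]; ring
    rw [e, hκ, hδ']; ring
  have hid : θ₁ * θ₂ - κ * (x₁ * θ₂ + x₂ * θ₁) = x₁ * x₂ * ((γ₁ - γ₂) * κ + δ) := by
    have e3 := h.V3
    rw [hx3] at e3
    have : θ₁ * θ₂ - κ * (x₁ * θ₂ + x₂ * θ₁) = n ^ 2 - κ ^ 2 * (x₁ * x₂) := by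
      rw [hθ₁', hθ₂']; ring
    rw [this, ← e3]; ring
  have hδ1 : v δ < 1 := by
    rw [hδ']
    exact Valuation.map_sub_lt _ (by rw [Valuation.map_neg]; exact h1) (h12 ▸ h1)
  -- v κ ≥ 1
  have hκ1 : 1 ≤ v κ := by
    by_contra hcon
    rw [not_le] at hcon
    have hn : v n < v x₁ := by
      have e : n = θ₁ - κ * x₁ := by rw [hθ₁']; ring
      rw [e]
      apply Valuation.map_sub_lt _ hP1
      rw [map_mul]
      calc v κ * v x₁ < 1 * v x₁ := mul_lt_mul_of_pos_right hcon hr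
        _ = v x₁ := one_mul _
    have e1 := h.vn_sq (v := v)
    have e2 : v n ^ 2 < v x₁ * v x₂ * v x₃ := by
      rw [← h12, pow_two]
      calc v n * v n ≤ v n * v x₁ := mul_le_mul' le_rfl hn.le
        _ < v x₁ * v x₁ := mul_lt_mul_of_pos_right hn hr
        _ = v x₁ * v x₁ * 1 := (mul_one _).symm
        _ ≤ v x₁ * v x₁ * v x₃ := mul_le_mul' le_rfl h3
    exact absurd e1 e2.ne
  have hκpos : 0 < v κ := lt_of_lt_of_le zero_lt_one hκ1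
  have hR : v (x₁ * x₂ * ((γ₁ - γ₂) * κ + δ)) = v x₁ * v x₁ * v κ := by
    rw [map_mul, map_mul, ← h12]
    congr 1
    have : v δ < v ((γ₁ - γ₂) * κ) := by
      rw [map_mul, hδ, one_mul]; exact lt_of_lt_of_le hδ1 hκ1
    rw [Valuation.map_add_eq_of_lt_left _ this, map_mul, hδ, one_mul]
  have hL : v (θ₁ * θ₂ - κ * (x₁ * θ₂ + x₂ * θ₁)) < v x₁ * v x₁ * v κ := by
    apply Valuation.map_sub_lt
    · rw [map_mul]
      calc v θ₁ * v θ₂ ≤ v θ₁ * v x₁ := mul_le_mul' le_rfl (h12 ▸ hP2.le)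
        _ < v x₁ * v x₁ := mul_lt_mul_of_pos_right hP1 hr
        _ = v x₁ * v x₁ * 1 := (mul_one _).symm
        _ ≤ v x₁ * v x₁ * v κ := mul_le_mul' le_rfl hκ1
    · rw [map_mul, mul_comm]
      apply mul_lt_mul_of_pos_right _ hκpos
      apply Valuation.map_add_lt
      · rw [map_mul]
        exact mul_lt_mul_of_pos_left (h12 ▸ hP2) hr
      · rw [map_mul, ← h12]
        exact mul_lt_mul_of_pos_left hP1 hr
  rw [hid, hR] at hL
  exact lt_irrefl _ hL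

/-- A point in the `M`-range has `v (y - γ₁ x) ≤ v a`. -/
lemma val_theta_le_of_M {x y : K} (hδ : v (γ₁ - γ₂) = 1) (ha : v a < 1)
    (hE : (y - γ₁ * x) * (y - γ₂ * x) = x * (x ^ 2 + a)) (hx : v x ≤ v a) :
    v (y - γ₁ * x) ≤ v a := by
  by_contra hcon
  rw [not_le] at hcon
  have hpos : 0 < v (y - γ₁ * x) := lt_of_le_of_lt zero_le hcon
  have h2 : v (y - γ₂ * x) = v (y - γ₁ * x) := by
    have e : y - γ₂ * x = (y - γ₁ * x) + (γ₁ - γ₂) * x := by ring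
    rw [e]
    apply Valuation.map_add_eq_of_lt_left
    rw [map_mul, hδ, one_mul]; exact hx.trans_lt hcon
  have h3 : v a * v a < v ((y - γ₁ * x) * (y - γ₂ * x)) := by
    rw [map_mul, h2]
    calc v a * v a ≤ v a * v (y - γ₁ * x) := mul_le_mul' le_rfl hcon.le
      _ < v (y - γ₁ * x) * v (y - γ₁ * x) := mul_lt_mul_of_pos_right hcon hpos
  have h4 : v (x * (x ^ 2 + a)) ≤ v a * v a := by
    rw [map_mul]
    apply mul_le_mul' hx
    apply Valuation.map_add_le _ _ le_rfl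
    rw [map_pow, pow_two]
    calc v x * v x ≤ v a * v a := mul_le_mul' hx hx
      _ ≤ v a * 1 := mul_le_mul' le_rfl ha.le
      _ = v a := mul_one _
  rw [hE] at h3
  exact absurd h4 (not_le.mpr h3)

/-- `M`, at the node, at the node: `v n ≤ v a`. -/
lemma Coll2.vn_le_of_M (h : Coll2 a γ₁ γ₂ x₁ y₁ x₂ y₂ x₃ y₃ l n) (hδ : v (γ₁ - γ₂) = 1)
    (ha : v a < 1) (h1 : v x₁ ≤ v a) (h2 : v x₂ < 1) (h3 : v x₃ < 1) : v n ≤ v a := by
  have hk : v (l - γ₁) ≤ 1 := h.vk_le_one hδ (h1.trans_lt ha) h2 h3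
  have ht : v (y₁ - γ₁ * x₁) ≤ v a := val_theta_le_of_M hδ ha h.E1 h1
  have e : n = (y₁ - γ₁ * x₁) - (l - γ₁) * x₁ := by rw [h.L1]; ring
  rw [e]
  apply Valuation.map_sub_le _ ht
  rw [map_mul]
  calc v (l - γ₁) * v x₁ ≤ 1 * v a := mul_le_mul' hk h1
    _ = v a := one_mul _

/-- `M`, mid, mid: the two middle points have `v x₂ * v x₃ = v a`. -/
lemma factA'_val (h : Coll2 a γ₁ γ₂ x₁ y₁ x₂ y₂ x₃ y₃ l n) (hδ : v (γ₁ - γ₂) = 1)
    (ha : v a < 1) (ha0 : a ≠ 0)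
    (h1 : v x₁ ≤ v a) (h2hi : v x₂ < 1) (h3hi : v x₃ < 1) : v x₂ * v x₃ = v a := by
  have hμ : 0 < v a := by rw [Valuation.pos_iff]; exact ha0
  have hs : v ((l - γ₁) + (l - γ₂)) = 1 := h.vs_eq_one hδ (h1.trans_lt ha) h2hi h3hi
  have hn : v n ≤ v a := h.vn_le_of_M hδ ha h1 h2hi h3hi
  have h12 : v (x₁ * x₂) < v a := by
    rw [map_mul]
    calc v x₁ * v x₂ ≤ v a * v x₂ := mul_le_mul' h1 le_rfl
      _ < v a * 1 := mul_lt_mul_of_pos_left h2hi hμ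
      _ = v a := mul_one _
  have h13 : v (x₁ * x₃) < v a := by
    rw [map_mul]
    calc v x₁ * v x₃ ≤ v a * v x₃ := mul_le_mul' h1 le_rfl
      _ < v a * 1 := mul_lt_mul_of_pos_left h3hi hμ
      _ = v a := mul_one _
  have hle : v x₂ * v x₃ ≤ v a := by
    have e : x₂ * x₃ = a - n * ((l - γ₁) + (l - γ₂)) - x₁ * x₂ - x₁ * x₃ := by
      rw [← h.V2]; ring
    rw [← map_mul, e]
    apply Valuation.map_sub_le _ (Valuation.map_sub_le _ (Valuation.map_sub_le _ le_rfl _)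
      h12.le) h13.le
    rw [map_mul, hs, mul_one]; exact hn
  rcases hle.lt_or_eq with hlt | heq
  · exfalso
    have hsn := h.vs_vn (v := v)
    rw [hs, mul_one] at hsn
    have hsum : v (x₁ * x₂ + x₁ * x₃ + x₂ * x₃) < v a :=
      val_add3_lt h12 h13 (by rw [map_mul]; exact hlt)
    rw [Valuation.map_sub_eq_of_lt_left _ hsum] at hsn
    have e1 := h.vn_sq (v := v)
    rw [hsn] at e1
    have e2 : v x₁ * v x₂ * v x₃ < v a ^ 2 := by
      rw [pow_two, mul_assoc]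
      calc v x₁ * (v x₂ * v x₃) ≤ v a * (v x₂ * v x₃) := mul_le_mul' h1 le_rfl
        _ < v a * v a := mul_lt_mul_of_pos_left hlt hμ
    exact absurd e1.symm e2.ne
  · exact heq

/-- `M`, mid, mid: the two middle points lie on the same branch. -/
lemma factA'_sign (h : Coll2 a γ₁ γ₂ x₁ y₁ x₂ y₂ x₃ y₃ l n) (hδ : v (γ₁ - γ₂) = 1)
    (ha : v a < 1)
    (h1 : v x₁ ≤ v a) (h2lo : v a < v x₂) (h2hi : v x₂ < 1) (h3lo : v a < v x₃)
    (h3hi : v x₃ < 1)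
    (hP2 : v (y₂ - γ₁ * x₂) < v x₂) (hN3 : v (y₃ - γ₂ * x₃) < v x₃) : False := by
  have hr2 : 0 < v x₂ := lt_of_le_of_lt zero_le h2lo
  have hr3 : 0 < v x₃ := lt_of_le_of_lt zero_le h3lo
  have hn : v n ≤ v a := h.vn_le_of_M hδ ha h1 h2hi h3hi
  have hk : v (l - γ₁) < 1 := by
    have e : (l - γ₁) * x₂ = (y₂ - γ₁ * x₂) - n := by rw [h.L2]; ring
    have : v ((l - γ₁) * x₂) < v x₂ := by
      rw [e]; exact Valuation.map_sub_lt _ hP2 (hn.trans_lt h2lo)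
    rw [map_mul] at this
    by_contra hcon
    rw [not_lt] at hcon
    exact absurd (le_mul_of_one_le_left hr2.le hcon) (not_le.mpr this)
  have hk' : v (l - γ₂) < 1 := by
    have e : (l - γ₂) * x₃ = (y₃ - γ₂ * x₃) - n := by rw [h.L3]; ring
    have : v ((l - γ₂) * x₃) < v x₃ := by
      rw [e]; exact Valuation.map_sub_lt _ hN3 (hn.trans_lt h3lo)
    rw [map_mul] at this
    by_contra hcon
    rw [not_lt] at hcon
    exact absurd (le_mul_of_one_le_left hr3.le hcon) (not_le.mpr this)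
  have e : γ₁ - γ₂ = (l - γ₂) - (l - γ₁) := by ring
  have : v (γ₁ - γ₂) < 1 := by rw [e]; exact Valuation.map_sub_lt _ hk' hk
  rw [hδ] at this
  exact lt_irrefl _ this

/-- If `v κ < 1` and `v (κ x + n) < v x` then `v n < v x`. -/
lemma val_n_lt_of_small {κ x n : K} (hκ : v κ < 1) (hx : 0 < v x)
    (h : v (κ * x + n) < v x) : v n < v x := by
  have e : n = (κ * x + n) - κ * x := by ring
  rw [e]
  apply Valuation.map_sub_lt _ h
  rw [map_mul]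
  calc v κ * v x < 1 * v x := mul_lt_mul_of_pos_right hκ hx
    _ = v x := one_mul _

/-- If `v κ = 1` and `v (κ x + n) < v x` then `v n = v x`. -/
lemma val_n_eq_of_unit {κ x n : K} (hκ : v κ = 1)
    (h : v (κ * x + n) < v x) : v n = v x := by
  have e : n = (κ * x + n) - κ * x := by ring
  have hκx : v (κ * x) = v x := by rw [map_mul, hκ, one_mul]
  rw [e, Valuation.map_sub_eq_of_lt_right _ (by rw [hκx]; exact h), hκx]

/-- mid, mid, mid, all on the same branch: `v x₁ * v x₂ * v x₃ = v a ^ 2`. -/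
lemma factA_same (h : Coll2 a γ₁ γ₂ x₁ y₁ x₂ y₂ x₃ y₃ l n) (hδ : v (γ₁ - γ₂) = 1)
    (h1lo : v a < v x₁) (h1hi : v x₁ < 1)
    (h2lo : v a < v x₂) (h2hi : v x₂ < 1) (h3lo : v a < v x₃) (h3hi : v x₃ < 1)
    (hP1 : v (y₁ - γ₁ * x₁) < v x₁) (hP2 : v (y₂ - γ₁ * x₂) < v x₂)
    (hP3 : v (y₃ - γ₁ * x₃) < v x₃) : v x₁ * v x₂ * v x₃ = v a ^ 2 := by
  have hr1 : 0 < v x₁ := lt_of_le_of_lt zero_le h1lo
  have hr2 : 0 < v x₂ := lt_of_le_of_lt zero_le h2lo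
  have hr3 : 0 < v x₃ := lt_of_le_of_lt zero_le h3lo
  have hs : v ((l - γ₁) + (l - γ₂)) = 1 := h.vs_eq_one hδ h1hi h2hi h3hi
  have e1 : y₁ - γ₁ * x₁ = (l - γ₁) * x₁ + n := by rw [h.L1]; ring
  have e2 : y₂ - γ₁ * x₂ = (l - γ₁) * x₂ + n := by rw [h.L2]; ring
  have e3 : y₃ - γ₁ * x₃ = (l - γ₁) * x₃ + n := by rw [h.L3]; ring
  rw [e1] at hP1
  rw [e2] at hP2
  rw [e3] at hP3
  rcases h.kappa_dichotomy hδ h1hi h2hi h3hi with ⟨hk, -⟩ | ⟨hk, -⟩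
  · have hn1 := val_n_lt_of_small hk hr1 hP1
    have hn2 := val_n_lt_of_small hk hr2 hP2
    have hn3 := val_n_lt_of_small hk hr3 hP3
    have hnsq := h.vn_sq (v := v)
    have key : ∀ p q r : Γ₀, 0 < p → 0 < q → v n ^ 2 = p * q * r → v n < r → p * q < v n := by
      intro p q r hp hq hpqr hr
      by_contra hcon
      rw [not_lt] at hcon
      have : v n ^ 2 < p * q * r := by
        rw [pow_two]
        calc v n * v n ≤ p * q * v n := mul_le_mul' hcon le_rfl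
          _ < p * q * r := mul_lt_mul_of_pos_left hr (mul_pos hp hq)
      exact absurd hpqr this.ne
    have k12 : v (x₁ * x₂) < v n := by
      rw [map_mul]; exact key _ _ _ hr1 hr2 hnsq hn3
    have k13 : v (x₁ * x₃) < v n := by
      rw [map_mul]; exact key _ _ _ hr1 hr3 (by rw [hnsq]; exact mul_right_comm _ _ _) hn2
    have k23 : v (x₂ * x₃) < v n := by
      rw [map_mul]
      exact key _ _ _ hr2 hr3 (by rw [hnsq]; exact mul_rotate _ _ _) hn1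
    have hsum : v (x₁ * x₂ + x₁ * x₃ + x₂ * x₃) < v n := val_add3_lt k12 k13 k23
    have hns : v (n * ((l - γ₁) + (l - γ₂))) = v n := by rw [map_mul, hs, mul_one]
    have : v a = v (n * ((l - γ₁) + (l - γ₂))) := by
      have e : a = (a - n * ((l - γ₁) + (l - γ₂))) + n * ((l - γ₁) + (l - γ₂)) := by ring
      conv_lhs => rw [e]
      apply Valuation.map_add_eq_of_lt_right
      rw [← h.V2, hns]; exact hsum
    rw [hns] at this
    rw [← hnsq, this]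
  · exfalso
    have hn1 := val_n_eq_of_unit hk hP1
    have hn2 := val_n_eq_of_unit hk hP2
    have hn3 := val_n_eq_of_unit hk hP3
    have hnsq := h.vn_sq (v := v)
    rw [← hn1, ← hn2, ← hn3, pow_two] at hnsq
    have hnpos : 0 < v n := hn1 ▸ hr1
    have : v n * v n * 1 = v n * v n * v n := by rw [mul_one]; exact hnsq
    have := mul_left_cancel₀ (mul_pos hnpos hnpos).ne' this
    rw [← this] at hn1
    exact absurd hn1.symm h1hi.ne

/-- mid, mid, mid, two on one branch and the third on the other: `v x₃ = v x₁ * v x₂`. -/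
lemma factA_mixed (h : Coll2 a γ₁ γ₂ x₁ y₁ x₂ y₂ x₃ y₃ l n) (hδ : v (γ₁ - γ₂) = 1)
    (h1lo : v a < v x₁) (h1hi : v x₁ < 1)
    (h2lo : v a < v x₂) (h2hi : v x₂ < 1) (h3lo : v a < v x₃) (h3hi : v x₃ < 1)
    (hP1 : v (y₁ - γ₁ * x₁) < v x₁) (hP2 : v (y₂ - γ₁ * x₂) < v x₂)
    (hN3 : v (y₃ - γ₂ * x₃) < v x₃) : v x₃ = v x₁ * v x₂ := by
  have hr1 : 0 < v x₁ := lt_of_le_of_lt zero_le h1lo
  have hr2 : 0 < v x₂ := lt_of_le_of_lt zero_le h2lo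
  have hr3 : 0 < v x₃ := lt_of_le_of_lt zero_le h3lo
  have e1 : y₁ - γ₁ * x₁ = (l - γ₁) * x₁ + n := by rw [h.L1]; ring
  have e2 : y₂ - γ₁ * x₂ = (l - γ₁) * x₂ + n := by rw [h.L2]; ring
  have e3 : y₃ - γ₂ * x₃ = (l - γ₂) * x₃ + n := by rw [h.L3]; ring
  rw [e1] at hP1
  rw [e2] at hP2
  rw [e3] at hN3
  have hnsq := h.vn_sq (v := v)
  rcases h.kappa_dichotomy hδ h1hi h2hi h3hi with ⟨-, hk'⟩ | ⟨hk, hk'⟩
  · have hn3 := val_n_eq_of_unit hk' hN3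
    rw [hn3, pow_two] at hnsq
    have : v x₃ * v x₃ = v x₁ * v x₂ * v x₃ := hnsq
    exact mul_right_cancel₀ hr3.ne' this
  · exfalso
    have hn1 := val_n_eq_of_unit hk hP1
    have hn2 := val_n_eq_of_unit hk hP2
    rw [← hn1, ← hn2, pow_two] at hnsq
    have hnpos : 0 < v n := hn1 ▸ hr1
    have : v n * v n * 1 = v n * v n * v x₃ := by rw [mul_one]; exact hnsq
    have := mul_left_cancel₀ (mul_pos hnpos hnpos).ne' this
    exact absurd this.symm h3hi.ne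

end Fermat.Agent.S13.Comp2
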