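import Fermat.Agent.S13.Comp2XY
import Mathlib.AlgebraicGeometry.EllipticCurve.Affine.Point
import Mathlib.FieldTheory.IsAlgClosed.Basic

/-!
# The component homomorphism on the points of a Weierstrass curve with nodal reduction,
valid in every residue characteristic

Model: `a₃ = a₆ = 0`, so that `(0, 0)` is a point of order two reducing to the node, and
`γ₁, γ₂` are the two roots of `t² + a₁ t - a₂` (the tangent directions at the node), which
are assumed to be distinct in the residue field.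
-/

set_option autoImplicit false

namespace Fermat.Agent.S13.Comp2

open WeierstrassCurve WeierstrassCurve.Affine

variable {K : Type*} [Field K] {Γ₀ : Type*} [LinearOrderedCommGroupWithZero Γ₀]

/-- A Weierstrass curve `y² + a₁ x y = x³ + a₂ x² + a₄ x` over a valued field, together with
a factorisation `t² + a₁ t - a₂ = (t - γ₁) (t - γ₂)` with `v (γ₁ - γ₂) = 1`, and `v a₄ < 1`:
the reduction has a node at `(0, 0)` with tangent directions `γ₁ ≠ γ₂`.
No hypothesis on the residue characteristic. -/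
structure NodeModel2 (v : Valuation K Γ₀) (W : Affine K) where
  γ₁ : K
  γ₂ : K
  ha₁ : W.a₁ = -(γ₁ + γ₂)
  ha₂ : W.a₂ = -(γ₁ * γ₂)
  ha₃ : W.a₃ = 0
  ha₆ : W.a₆ = 0
  hδ : v (γ₁ - γ₂) = 1
  ha : v W.a₄ < 1
  ha0 : W.a₄ ≠ 0

namespace NodeModel2

variable {v : Valuation K Γ₀} {W : Affine K}

/-- The same model with the two branches exchanged. -/
def flip (M : NodeModel2 v W) : NodeModel2 v W where
  γ₁ := M.γ₂
  γ₂ := M.γ₁
  ha₁ := by rw [M.ha₁]; ring
  ha₂ := by rw [M.ha₂]; ring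
  ha₃ := M.ha₃
  ha₆ := M.ha₆
  hδ := val_swap_delta M.hδ
  ha := M.ha
  ha0 := M.ha0

lemma key_id (M : NodeModel2 v W) (x y : K) :
    (y - M.γ₁ * x) * (y - M.γ₂ * x) - x * (x ^ 2 + W.a₄) =
      (y ^ 2 + W.a₁ * x * y + W.a₃ * y) - (x ^ 3 + W.a₂ * x ^ 2 + W.a₄ * x + W.a₆) := by
  rw [M.ha₁, M.ha₂, M.ha₃, M.ha₆]
  ring

lemma equation_iff (M : NodeModel2 v W) (x y : K) :
    W.Equation x y ↔ (y - M.γ₁ * x) * (y - M.γ₂ * x) = x * (x ^ 2 + W.a₄) := by
  rw [Affine.equation_iff, ← sub_eq_zero, ← M.key_id x y, sub_eq_zero]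

lemma theta_negY (M : NodeModel2 v W) (x y : K) :
    W.negY x y - M.γ₁ * x = -(y - M.γ₂ * x) := by
  simp only [Affine.negY]
  rw [M.ha₁, M.ha₃]
  ring

/-- The component of a point. -/
noncomputable def comp (M : NodeModel2 v W) : W.Point → CompGroup v W.a₄
  | .zero => 1
  | .some x y _ => comp2XY v W.a₄ M.γ₁ x y

@[simp] lemma comp_zero (M : NodeModel2 v W) : M.comp 0 = 1 := rfl

lemma comp_some (M : NodeModel2 v W) {x y : K} (h : W.Nonsingular x y) :
    M.comp (.some x y h) = comp2XY v W.a₄ M.γ₁ x y := rfl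

lemma comp2XY_negY (M : NodeModel2 v W) {x y : K} (h : W.Equation x y) :
    comp2XY v W.a₄ M.γ₁ x (W.negY x y) = (comp2XY v W.a₄ M.γ₁ x y)⁻¹ := by
  rw [← comp2XY_flip M.hδ M.ha M.ha0 ((M.equation_iff x y).mp h)]
  simp only [comp2XY]
  rw [M.theta_negY, Valuation.map_neg]

lemma comp_neg (M : NodeModel2 v W) (P : W.Point) : M.comp (-P) = (M.comp P)⁻¹ := by
  rcases P with _ | ⟨x, y, h⟩
  · change M.comp 0 = (M.comp 0)⁻¹
    simp
  · rw [Point.neg_some, comp_some, comp_some]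
    exact M.comp2XY_negY h.1

variable [DecidableEq K]

/-- The collinearity data attached to a sum of two affine points. -/
lemma coll_of_add (M : NodeModel2 v W) {x₁ y₁ x₂ y₂ : K} (h₁ : W.Equation x₁ y₁)
    (h₂ : W.Equation x₂ y₂) (hxy : ¬(x₁ = x₂ ∧ y₁ = W.negY x₂ y₂)) :
    Coll2 W.a₄ M.γ₁ M.γ₂ x₁ y₁ x₂ y₂
      (W.addX x₁ x₂ (W.slope x₁ x₂ y₁ y₂))
      (W.negAddY x₁ x₂ y₁ (W.slope x₁ x₂ y₁ y₂))
      (W.slope x₁ x₂ y₁ y₂)
      (y₁ - W.slope x₁ x₂ y₁ y₂ * x₁) := by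
  set ℓ := W.slope x₁ x₂ y₁ y₂ with hℓ
  -- the line passes through the second point
  have hline : y₂ = ℓ * (x₂ - x₁) + y₁ := by
    by_cases hx : x₁ = x₂
    · have hy : y₁ ≠ W.negY x₂ y₂ := fun h => hxy ⟨hx, h⟩
      have := Y_eq_of_Y_ne h₁ h₂ hx hy
      rw [hx, this]; ring
    · rw [hℓ, slope_of_X_ne hx]
      have : x₁ - x₂ ≠ 0 := sub_ne_zero.mpr hx
      field_simp
      ring
  -- Vieta
  have hV := addPolynomial_slope h₁ h₂ hxy
  rw [addPolynomial_eq, neg_inj, Cubic.prod_X_sub_C_eq, Cubic.toPoly_injective] at hV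
  have hVc := congrArg Cubic.c hV
  have hVd := congrArg Cubic.d hV
  simp only at hVc hVd
  rw [← hℓ] at hVc hVd
  have hE3 : W.Equation (W.addX x₁ x₂ ℓ) (W.negAddY x₁ x₂ y₁ ℓ) := equation_negAdd h₁ h₂ hxy
  refine ⟨?_, ?_, ?_, (M.equation_iff _ _).mp h₁, (M.equation_iff _ _).mp h₂,
    (M.equation_iff _ _).mp hE3, ?_, ?_, ?_⟩
  · ring
  · rw [hline]; ring
  · simp only [negAddY]
    ring
  · simp only [addX]
    rw [M.ha₁, M.ha₂]
    ring
  · rw [← hVc]
    rw [M.ha₁, M.ha₃]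
    ring
  · have e : x₁ * x₂ * W.addX x₁ x₂ ℓ = -(-(x₁ * x₂ * W.addX x₁ x₂ ℓ)) := by ring
    rw [e, ← hVd]
    rw [M.ha₃, M.ha₆]
    ring

/-- **The component map is additive.** -/
theorem comp_add (M : NodeModel2 v W) (P Q : W.Point) :
    M.comp (P + Q) = M.comp P * M.comp Q := by
  rcases P with _ | ⟨x₁, y₁, h₁⟩
  · change M.comp (0 + Q) = M.comp 0 * M.comp Q
    rw [zero_add, comp_zero, one_mul]
  rcases Q with _ | ⟨x₂, y₂, h₂⟩
  · change M.comp (_ + 0) = M.comp _ * M.comp 0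
    rw [add_zero, comp_zero, mul_one]
  by_cases hxy : x₁ = x₂ ∧ y₁ = W.negY x₂ y₂
  · rw [Point.add_of_Y_eq hxy.1 hxy.2, comp_zero]
    have : Point.some x₁ y₁ h₁ = -Point.some x₂ y₂ h₂ := by
      rw [Point.neg_some]
      obtain ⟨rfl, rfl⟩ := hxy
      rfl
    rw [this, comp_neg, inv_mul_cancel]
  · rw [Point.add_some hxy, comp_some, comp_some, comp_some]
    have hc := M.coll_of_add h₁.1 h₂.1 hxy
    have h3 := comp2XY_mul hc M.hδ M.ha M.ha0
    rw [addY, M.comp2XY_negY (equation_negAdd h₁.1 h₂.1 hxy)]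
    exact (mul_eq_one_iff_eq_inv.mp h3).symm

/-- The component map as a homomorphism. -/
noncomputable def compHom (M : NodeModel2 v W) : W.Point →+ Additive (CompGroup v W.a₄) where
  toFun P := Additive.ofMul (M.comp P)
  map_zero' := rfl
  map_add' P Q := by
    rw [M.comp_add P Q]; rfl

lemma comp_nsmul (M : NodeModel2 v W) (k : ℕ) (P : W.Point) :
    M.comp (k • P) = M.comp P ^ k := by
  induction k with
  | zero => simp
  | succ k ih =>
    rw [succ_nsmul, comp_add, ih]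
    exact (pow_succ _ _).symm

lemma comp_sub (M : NodeModel2 v W) (P Q : W.Point) :
    M.comp (P - Q) = M.comp P * (M.comp Q)⁻¹ := by
  rw [sub_eq_add_neg, comp_add, comp_neg]

end NodeModel2

end Fermat.Agent.S13.Comp2
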