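import Fermat.Agent.S13.Comp2Core
import Mathlib.GroupTheory.QuotientGroup.Basic
import Mathlib.Algebra.Group.Subgroup.ZPowers.Basic

/-!
# The component map on coordinates (any residue characteristic), and its multiplicativity
on collinear triples
-/

set_option autoImplicit false

namespace Fermat.Agent.S13.Comp2

variable {K : Type*} [Field K] {Γ₀ : Type*} [LinearOrderedCommGroupWithZero Γ₀]

/-- The unit of `Γ₀` attached to a (possibly zero) element; junk value `1` at `0`. -/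
noncomputable def toU (g : Γ₀) : Γ₀ˣ := if h : g = 0 then 1 else Units.mk0 g h

lemma toU_coe {g : Γ₀} (h : g ≠ 0) : ((toU g : Γ₀ˣ) : Γ₀) = g := by
  simp [toU, h]

lemma toU_mul {p q : Γ₀} (hp : p ≠ 0) (hq : q ≠ 0) : toU (p * q) = toU p * toU q := by
  apply Units.ext
  rw [Units.val_mul, toU_coe hp, toU_coe hq, toU_coe (mul_ne_zero hp hq)]

lemma toU_pow {p : Γ₀} (hp : p ≠ 0) (k : ℕ) : toU (p ^ k) = toU p ^ k := by
  apply Units.ext
  rw [Units.val_pow_eq_pow_val, toU_coe hp, toU_coe (pow_ne_zero k hp)]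

lemma toU_one : toU (1 : Γ₀) = 1 := by
  apply Units.ext
  rw [toU_coe one_ne_zero, Units.val_one]

variable (v : Valuation K Γ₀)

/-- The component group `Γ₀ˣ / ⟨v(a)²⟩`. -/
abbrev CompGroup (a : K) : Type _ := Γ₀ˣ ⧸ Subgroup.zpowers (toU (v a) ^ 2)

/-- The class of an element of `Γ₀` in the component group. -/
noncomputable def cls (a : K) (g : Γ₀) : CompGroup v a := QuotientGroup.mk (toU g)

lemma cls_mul (a : K) {p q : Γ₀} (hp : p ≠ 0) (hq : q ≠ 0) :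
    cls v a (p * q) = cls v a p * cls v a q := by
  rw [cls, toU_mul hp hq]; rfl

lemma cls_pow (a : K) {p : Γ₀} (hp : p ≠ 0) (k : ℕ) :
    cls v a (p ^ k) = cls v a p ^ k := by
  rw [cls, toU_pow hp]; rfl

lemma cls_one (a : K) : cls v a 1 = 1 := by
  rw [cls, toU_one]; rfl

lemma cls_a_sq (a : K) (ha0 : a ≠ 0) : cls v a (v a ^ 2) = 1 := by
  have h0 : v a ≠ 0 := (Valuation.ne_zero_iff v).mpr ha0
  rw [cls, toU_pow h0]
  exact (QuotientGroup.eq_one_iff _).mpr (Subgroup.mem_zpowers _)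

lemma cls_a_mul_self (a : K) (ha0 : a ≠ 0) : cls v a (v a) * cls v a (v a) = 1 := by
  have h0 : v a ≠ 0 := (Valuation.ne_zero_iff v).mpr ha0
  rw [← cls_mul v a h0 h0, ← pow_two, cls_a_sq v a ha0]

lemma cls_a_inv (a : K) (ha0 : a ≠ 0) : (cls v a (v a))⁻¹ = cls v a (v a) :=
  inv_eq_of_mul_eq_one_left (cls_a_mul_self v a ha0)

/-- The component of a point with coordinates `(x, y)` on
`(y - γ₁ x) (y - γ₂ x) = x (x ^ 2 + a)`, relative to the branch `y ≡ γ₁ x`. -/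
noncomputable def comp2XY (a γ₁ : K) (x y : K) : CompGroup v a :=
  if 1 ≤ v x then 1
  else if v x ≤ v a then cls v a (v a)
  else if v (y - γ₁ * x) < v x then cls v a (v x)
  else (cls v a (v x))⁻¹

variable {v}
variable {a γ₁ γ₂ x₁ y₁ x₂ y₂ x₃ y₃ l n : K}

lemma comp2XY_of_Z {x y : K} (h : 1 ≤ v x) : comp2XY v a γ₁ x y = 1 := by
  simp [comp2XY, h]

lemma comp2XY_of_M {x y : K} (ha : v a < 1) (h : v x ≤ v a) :
    comp2XY v a γ₁ x y = cls v a (v a) := by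
  have : ¬ 1 ≤ v x := not_le.mpr (h.trans_lt ha)
  simp [comp2XY, this, h]

lemma comp2XY_of_P {x y : K} (hlo : v a < v x) (hhi : v x < 1)
    (hP : v (y - γ₁ * x) < v x) : comp2XY v a γ₁ x y = cls v a (v x) := by
  simp [comp2XY, not_le.mpr hhi, not_le.mpr hlo, hP]

lemma comp2XY_of_N {x y : K} (hδ : v (γ₁ - γ₂) = 1)
    (hlo : v a < v x) (hhi : v x < 1)
    (hN : v (y - γ₂ * x) < v x) : comp2XY v a γ₁ x y = (cls v a (v x))⁻¹ := by
  have hP : ¬ v (y - γ₁ * x) < v x := fun hP => sign_exclusive hδ ⟨hP, hN⟩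
  simp [comp2XY, not_le.mpr hhi, not_le.mpr hlo, hP]

/-- The four types of points. -/
lemma comp2XY_cases {x y : K} (hδ : v (γ₁ - γ₂) = 1) (ha : v a < 1)
    (hE : (y - γ₁ * x) * (y - γ₂ * x) = x * (x ^ 2 + a)) :
    (1 ≤ v x ∧ comp2XY v a γ₁ x y = 1) ∨
    (v x ≤ v a ∧ comp2XY v a γ₁ x y = cls v a (v a)) ∨
    (v a < v x ∧ v x < 1 ∧ v (y - γ₁ * x) < v x ∧ comp2XY v a γ₁ x y = cls v a (v x)) ∨
    (v a < v x ∧ v x < 1 ∧ v (y - γ₂ * x) < v x ∧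
      comp2XY v a γ₁ x y = (cls v a (v x))⁻¹) := by
  rcases le_or_gt 1 (v x) with hZ | hhi
  · exact Or.inl ⟨hZ, comp2XY_of_Z hZ⟩
  rcases le_or_gt (v x) (v a) with hM | hlo
  · exact Or.inr (Or.inl ⟨hM, comp2XY_of_M ha hM⟩)
  rcases sign_exists hE hlo hhi with hP | hN
  · exact Or.inr (Or.inr (Or.inl ⟨hlo, hhi, hP, comp2XY_of_P hlo hhi hP⟩))
  · exact Or.inr (Or.inr (Or.inr ⟨hlo, hhi, hN, comp2XY_of_N hδ hlo hhi hN⟩))

/-- Exchanging the branches inverts the component. -/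
lemma comp2XY_flip {x y : K} (hδ : v (γ₁ - γ₂) = 1) (ha : v a < 1) (ha0 : a ≠ 0)
    (hE : (y - γ₁ * x) * (y - γ₂ * x) = x * (x ^ 2 + a)) :
    comp2XY v a γ₂ x y = (comp2XY v a γ₁ x y)⁻¹ := by
  have hδ' : v (γ₂ - γ₁) = 1 := val_swap_delta hδ
  rcases comp2XY_cases hδ ha hE with ⟨hZ, e⟩ | ⟨hM, e⟩ | ⟨hlo, hhi, hP, e⟩ | ⟨hlo, hhi, hN, e⟩
  · rw [e, comp2XY_of_Z hZ, inv_one]
  · rw [e, comp2XY_of_M ha hM, cls_a_inv v a ha0]
  · rw [e]; exact comp2XY_of_N hδ' hlo hhi hP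
  · rw [e, inv_inv]; exact comp2XY_of_P hlo hhi hN

/-- Two points at the node, third away: the components cancel. -/
lemma core_two (h : Coll2 a γ₁ γ₂ x₁ y₁ x₂ y₂ x₃ y₃ l n) (hδ : v (γ₁ - γ₂) = 1)
    (ha : v a < 1) (ha0 : a ≠ 0)
    (h1 : v x₁ < 1) (h2' : v x₂ < 1) (h3 : 1 ≤ v x₃) :
    comp2XY v a γ₁ x₁ y₁ * comp2XY v a γ₁ x₂ y₂ = 1 := by
  have hμ : 0 < v a := by rw [Valuation.pos_iff]; exact ha0
  have hδ' : v (γ₂ - γ₁) = 1 := val_swap_delta hδ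
  rcases comp2XY_cases hδ ha h.E1 with ⟨hZ, -⟩ | ⟨hM1, e1⟩ | ⟨hlo1, hhi1, hP1, e1⟩ |
    ⟨hlo1, hhi1, hN1, e1⟩
  · exact absurd hZ (not_le.mpr h1)
  · rcases comp2XY_cases hδ ha h.E2 with ⟨hZ, -⟩ | ⟨hM2, e2⟩ | ⟨hlo2, hhi2, hP2, e2⟩ |
      ⟨hlo2, hhi2, hN2, e2⟩
    · exact absurd hZ (not_le.mpr h2')
    · rw [e1, e2]; exact cls_a_mul_self v a ha0
    · exact (factD h hδ (hM1.trans_lt hlo2) (h1.trans_le h3) (hhi2.le.trans h3) h3
        (hlo2.trans_le (le_mul_of_one_le_right (hμ.trans hlo2).le h3))).elim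
    · exact (factD h hδ (hM1.trans_lt hlo2) (h1.trans_le h3) (hhi2.le.trans h3) h3
        (hlo2.trans_le (le_mul_of_one_le_right (hμ.trans hlo2).le h3))).elim
  all_goals
    rcases comp2XY_cases hδ ha h.E2 with ⟨hZ, -⟩ | ⟨hM2, e2⟩ | ⟨hlo2, hhi2, hP2, e2⟩ |
      ⟨hlo2, hhi2, hN2, e2⟩
    · exact absurd hZ (not_le.mpr h2')
    · exact (factD h.swap12 hδ (hM2.trans_lt hlo1) (h2'.trans_le h3) (hhi1.le.trans h3) h3
        (hlo1.trans_le (le_mul_of_one_le_right (hμ.trans hlo1).le h3))).elim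
  all_goals
    have h12 : v x₁ = v x₂ := by
      rcases lt_trichotomy (v x₁) (v x₂) with hlt | heq | hgt
      · exact (factD h hδ hlt (h1.trans_le h3) (hhi2.le.trans h3) h3
          (hlo2.trans_le (le_mul_of_one_le_right (hμ.trans hlo2).le h3))).elim
      · exact heq
      · exact (factD h.swap12 hδ hgt (h2'.trans_le h3) (hhi1.le.trans h3) h3
          (hlo1.trans_le (le_mul_of_one_le_right (hμ.trans hlo1).le h3))).elim
    have hx1 : x₁ ≠ 0 := (Valuation.ne_zero_iff v).mp (hμ.trans hlo1).ne'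
  · exact (factBsign h hδ h12 h1 hx1 h3 hP1 hP2).elim
  · rw [e1, e2, h12]; exact mul_inv_cancel _
  · rw [e1, e2, h12]; exact inv_mul_cancel _
  · exact (factBsign h.flip hδ' h12 h1 hx1 h3 hN1 hN2).elim

/-- All three points at the node, the first one in the `M`-range. -/
lemma core_three_M (h : Coll2 a γ₁ γ₂ x₁ y₁ x₂ y₂ x₃ y₃ l n) (hδ : v (γ₁ - γ₂) = 1)
    (ha : v a < 1) (ha0 : a ≠ 0)
    (h1 : v x₁ ≤ v a) (h2' : v x₂ < 1) (h3 : v x₃ < 1) :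
    comp2XY v a γ₁ x₁ y₁ * comp2XY v a γ₁ x₂ y₂ * comp2XY v a γ₁ x₃ y₃ = 1 := by
  have hμ : 0 < v a := by rw [Valuation.pos_iff]; exact ha0
  have hδ' : v (γ₂ - γ₁) = 1 := val_swap_delta hδ
  have e1 : comp2XY v a γ₁ x₁ y₁ = cls v a (v a) := comp2XY_of_M ha h1
  rcases comp2XY_cases hδ ha h.E2 with ⟨hZ, -⟩ | ⟨hM2, e2⟩ | ⟨hlo2, hhi2, hP2, e2⟩ |
    ⟨hlo2, hhi2, hN2, e2⟩
  · exact absurd hZ (not_le.mpr h2')
  · exact (factMMmid h hδ ha ha0 h1 hM2 h3).elim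
  all_goals
    rcases comp2XY_cases hδ ha h.E3 with ⟨hZ, -⟩ | ⟨hM3, e3⟩ | ⟨hlo3, hhi3, hP3, e3⟩ |
      ⟨hlo3, hhi3, hN3, e3⟩
    · exact absurd hZ (not_le.mpr h3)
    · exact (factMMmid h.swap23 hδ ha ha0 h1 hM3 h2').elim
  all_goals
    have hval := factA'_val h hδ ha ha0 h1 hhi2 hhi3
    have hne2 : v x₂ ≠ 0 := (hμ.trans hlo2).ne'
    have hne3 : v x₃ ≠ 0 := (hμ.trans hlo3).ne'
  · rw [e1, e2, e3, mul_assoc, ← cls_mul v a hne2 hne3, hval]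
    exact cls_a_mul_self v a ha0
  · exact (factA'_sign h hδ ha h1 hlo2 hhi2 hlo3 hhi3 hP2 hN3).elim
  · exact (factA'_sign h.flip hδ' ha h1 hlo2 hhi2 hlo3 hhi3 hN2 hP3).elim
  · rw [e1, e2, e3, mul_assoc, ← mul_inv, ← cls_mul v a hne2 hne3, hval]
    exact mul_inv_cancel _

/-- All three points in the middle range. -/
lemma core_three_mid (h : Coll2 a γ₁ γ₂ x₁ y₁ x₂ y₂ x₃ y₃ l n) (hδ : v (γ₁ - γ₂) = 1)
    (ha0 : a ≠ 0)
    (h1lo : v a < v x₁) (h1hi : v x₁ < 1)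
    (h2lo : v a < v x₂) (h2hi : v x₂ < 1) (h3lo : v a < v x₃) (h3hi : v x₃ < 1) :
    comp2XY v a γ₁ x₁ y₁ * comp2XY v a γ₁ x₂ y₂ * comp2XY v a γ₁ x₃ y₃ = 1 := by
  have hμ : 0 < v a := by rw [Valuation.pos_iff]; exact ha0
  have hδ' : v (γ₂ - γ₁) = 1 := val_swap_delta hδ
  have hne1 : v x₁ ≠ 0 := (hμ.trans h1lo).ne'
  have hne2 : v x₂ ≠ 0 := (hμ.trans h2lo).ne'
  have hne3 : v x₃ ≠ 0 := (hμ.trans h3lo).ne'
  rcases sign_exists h.E1 h1lo h1hi with hP1 | hN1 <;>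
  rcases sign_exists h.E2 h2lo h2hi with hP2 | hN2 <;>
  rcases sign_exists h.E3 h3lo h3hi with hP3 | hN3
  · -- PPP
    rw [comp2XY_of_P h1lo h1hi hP1, comp2XY_of_P h2lo h2hi hP2, comp2XY_of_P h3lo h3hi hP3,
      ← cls_mul v a hne1 hne2, ← cls_mul v a (mul_ne_zero hne1 hne2) hne3,
      factA_same h hδ h1lo h1hi h2lo h2hi h3lo h3hi hP1 hP2 hP3]
    exact cls_a_sq v a ha0
  · -- PPN
    rw [comp2XY_of_P h1lo h1hi hP1, comp2XY_of_P h2lo h2hi hP2,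
      comp2XY_of_N hδ h3lo h3hi hN3,
      factA_mixed h hδ h1lo h1hi h2lo h2hi h3lo h3hi hP1 hP2 hN3,
      ← cls_mul v a hne1 hne2]
    exact mul_inv_cancel _
  · -- PNP
    rw [comp2XY_of_P h1lo h1hi hP1, comp2XY_of_N hδ h2lo h2hi hN2,
      comp2XY_of_P h3lo h3hi hP3,
      factA_mixed h.swap23 hδ h1lo h1hi h3lo h3hi h2lo h2hi hP1 hP3 hN2,
      cls_mul v a hne1 hne3, mul_right_comm]
    exact mul_inv_cancel _
  · -- PNN
    have := factA_mixed h.rot.flip hδ' h2lo h2hi h3lo h3hi h1lo h1hi hN2 hN3 hP1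
    rw [comp2XY_of_P h1lo h1hi hP1, comp2XY_of_N hδ h2lo h2hi hN2,
      comp2XY_of_N hδ h3lo h3hi hN3, this, cls_mul v a hne2 hne3, mul_assoc, ← mul_inv]
    exact mul_inv_cancel _
  · -- NPP
    have := factA_mixed h.rot hδ h2lo h2hi h3lo h3hi h1lo h1hi hP2 hP3 hN1
    rw [comp2XY_of_N hδ h1lo h1hi hN1, comp2XY_of_P h2lo h2hi hP2,
      comp2XY_of_P h3lo h3hi hP3, this, cls_mul v a hne2 hne3, mul_assoc]
    exact inv_mul_cancel _
  · -- NPN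
    have := factA_mixed h.swap23.flip hδ' h1lo h1hi h3lo h3hi h2lo h2hi hN1 hN3 hP2
    rw [comp2XY_of_N hδ h1lo h1hi hN1, comp2XY_of_P h2lo h2hi hP2,
      comp2XY_of_N hδ h3lo h3hi hN3, this, cls_mul v a hne1 hne3, mul_right_comm,
      ← mul_inv]
    exact inv_mul_cancel _
  · -- NNP
    have := factA_mixed h.flip hδ' h1lo h1hi h2lo h2hi h3lo h3hi hN1 hN2 hP3
    rw [comp2XY_of_N hδ h1lo h1hi hN1, comp2XY_of_N hδ h2lo h2hi hN2,
      comp2XY_of_P h3lo h3hi hP3, this, cls_mul v a hne1 hne2, ← mul_inv]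
    exact inv_mul_cancel _
  · -- NNN
    have := factA_same h.flip hδ' h1lo h1hi h2lo h2hi h3lo h3hi hN1 hN2 hN3
    rw [comp2XY_of_N hδ h1lo h1hi hN1, comp2XY_of_N hδ h2lo h2hi hN2,
      comp2XY_of_N hδ h3lo h3hi hN3, ← mul_inv, ← mul_inv,
      ← cls_mul v a hne1 hne2, ← cls_mul v a (mul_ne_zero hne1 hne2) hne3, this,
      cls_a_sq v a ha0, inv_one]

/-- **Core theorem**: the components of three collinear points multiply to `1`. -/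
theorem comp2XY_mul (h : Coll2 a γ₁ γ₂ x₁ y₁ x₂ y₂ x₃ y₃ l n) (hδ : v (γ₁ - γ₂) = 1)
    (ha : v a < 1) (ha0 : a ≠ 0) :
    comp2XY v a γ₁ x₁ y₁ * comp2XY v a γ₁ x₂ y₂ * comp2XY v a γ₁ x₃ y₃ = 1 := by
  rcases le_or_gt 1 (v x₁) with hZ1 | h1 <;>
  rcases le_or_gt 1 (v x₂) with hZ2 | h2' <;>
  rcases le_or_gt 1 (v x₃) with hZ3 | h3
  · rw [comp2XY_of_Z hZ1, comp2XY_of_Z hZ2, comp2XY_of_Z hZ3]; simp
  · exact (factC h.swap13 hδ ha h3 hZ2 hZ1).elim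
  · exact (factC h.swap12 hδ ha h2' hZ1 hZ3).elim
  · rw [comp2XY_of_Z hZ1, one_mul]
    exact core_two h.rot hδ ha ha0 h2' h3 hZ1
  · exact (factC h hδ ha h1 hZ2 hZ3).elim
  · rw [comp2XY_of_Z hZ2, mul_one]
    exact core_two h.swap23 hδ ha ha0 h1 h3 hZ2
  · rw [comp2XY_of_Z hZ3, mul_one]
    exact core_two h hδ ha ha0 h1 h2' hZ3
  · -- all three at the node
    rcases le_or_gt (v x₁) (v a) with hM1 | hlo1
    · exact core_three_M h hδ ha ha0 hM1 h2' h3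
    rcases le_or_gt (v x₂) (v a) with hM2 | hlo2
    · have := core_three_M h.swap12 hδ ha ha0 hM2 h1 h3
      rw [mul_comm (comp2XY v a γ₁ x₁ y₁)]; exact this
    rcases le_or_gt (v x₃) (v a) with hM3 | hlo3
    · have := core_three_M h.rot' hδ ha ha0 hM3 h1 h2'
      rw [mul_comm, ← mul_assoc]; exact this
    exact core_three_mid h hδ ha0 hlo1 h1 hlo2 h2' hlo3 h3

end Fermat.Agent.S13.Comp2
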